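import Fermat.Agent.SquarefreeFFMulti.Count

/-!
# The local densities

Conditions modulo a polynomial of degree at most `N` are equidistributed in a box; those modulo the
squares of distinct irreducibles are independent.
-/

set_option autoImplicit false
set_option linter.style.openClassical false
set_option linter.style.haveILetI false
set_option linter.unusedSectionVars false

noncomputable section

open scoped Classical

namespace FA.SquarefreeFFMulti

open MvPolynomial FA.SquarefreeFF

variable {k : Type*} [Field k] [Fintype k] {n N : ℕ}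

/-- Division with remainder, as a bijection. -/
theorem exists_modEquiv {M : Polynomial k} (hM : M.Monic) {i : ℕ} (h : N = M.natDegree + i) :
    ∃ e : Deg k N ≃ Deg k M.natDegree × Deg k i,
      ∀ a, a.1 = (e a).1.1 + M * (e a).2.1 := by
  have hdeg : ∀ x : Deg k M.natDegree × Deg k i, x.1.1 + M * x.2.1 ∈ Polynomial.degreeLT k N :=
    fun x => by
      refine Submodule.add_mem _ (Polynomial.degreeLT_mono (by omega) x.1.2) ?_
      rcases eq_or_ne x.2.1 0 with h0 | h0
      · rw [h0, mul_zero]; exact Submodule.zero_mem _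
      rw [Polynomial.mem_degreeLT,
        ← Polynomial.natDegree_lt_iff_degree_lt (mul_ne_zero hM.ne_zero h0),
        Polynomial.natDegree_mul hM.ne_zero h0]
      have := (Polynomial.natDegree_lt_iff_degree_lt h0).mpr (Polynomial.mem_degreeLT.mp x.2.2)
      omega
  let φ : Deg k M.natDegree × Deg k i → Deg k N := fun x => ⟨_, hdeg x⟩
  have hinj : Function.Injective φ := fun x y he => by
    have h' : x.1.1 + M * x.2.1 = y.1.1 + M * y.2.1 := congrArg Subtype.val he
    have h1 : x.1.1 - y.1.1 = 0 := by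
      refine Polynomial.eq_zero_of_dvd_of_degree_lt (p := M) ⟨y.2.1 - x.2.1, by
        linear_combination h'⟩ ?_
      rw [Polynomial.degree_eq_natDegree hM.ne_zero]
      exact Polynomial.mem_degreeLT.mp (Submodule.sub_mem _ x.1.2 y.1.2)
    have h2 : M * x.2.1 = M * y.2.1 := by linear_combination h' - h1
    exact Prod.ext (Subtype.ext (sub_eq_zero.mp h1))
      (Subtype.ext (mul_left_cancel₀ hM.ne_zero h2))
  have hbij : Function.Bijective φ := hinj.bijective_of_nat_card_le (by
    rw [Nat.card_prod, natCard_deg, natCard_deg, natCard_deg, ← pow_add, h])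
  exact ⟨(Equiv.ofBijective φ hbij).symm, fun a =>
    (congrArg Subtype.val ((Equiv.ofBijective φ hbij).apply_symm_apply a)).symm⟩

/-- **Conditions modulo `M`** are equidistributed in a box of side `N ≥ deg M`. -/
theorem share_of_mod {M : Polynomial k} (hM : M.Monic) (hN : M.natDegree ≤ N)
    {s : (Fin n → Polynomial k) → Prop} (hs : ∀ a b, (∀ i, M ∣ a i - b i) → (s a ↔ s b)) :
    share n N s = (Nat.card {x : Box k n M.natDegree // s (pt x)} : ℝ) /
      (Fintype.card k : ℝ) ^ (M.natDegree * n) := by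
  obtain ⟨i, rfl⟩ := Nat.exists_eq_add_of_le hN
  obtain ⟨e, he⟩ := exists_modEquiv hM (i := i) rfl
  let E : Box k n (M.natDegree + i) ≃ Box k n M.natDegree × Box k n i :=
    (Equiv.piCongrRight fun _ => e).trans
      (Equiv.arrowProdEquivProdArrow (Fin n) (fun _ => Deg k M.natDegree) fun _ => Deg k i)
  have e1 : {a : Box k n (M.natDegree + i) // s (pt a)} ≃
      {x : Box k n M.natDegree // s (pt x)} × Box k n i :=
    (E.subtypeEquiv (q := fun x => s (pt x.1)) fun a => hs _ _ fun j => ⟨(e (a j)).2.1, by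
      show (a j).1 - (e (a j)).1.1 = _
      rw [he (a j)]; ring⟩).trans
      { toFun := fun x => (⟨x.1.1, x.2⟩, x.1.2)
        invFun := fun x => ⟨(x.1.1, x.2), x.1.2⟩
        left_inv := fun x => rfl
        right_inv := fun x => rfl }
  rw [share, Nat.card_congr e1, Nat.card_prod, natCard_box, Nat.cast_mul, Nat.cast_pow, add_mul,
    pow_add, mul_div_mul_right _ _ (pow_ne_zero _ q_pos.ne')]

/-- The number of zeros of `F` modulo `P²`. -/
def rootCount (F : MvPolynomial (Fin n) (Polynomial k)) (P : Polynomial k) : ℕ :=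
  Nat.card {x : Box k n (2 * P.natDegree) // P ^ 2 ∣ eval (pt x) F}

/-- The probability that `P²` divides a value. -/
def rootShare (F : MvPolynomial (Fin n) (Polynomial k)) (P : Polynomial k) : ℝ :=
  (rootCount F P : ℝ) / (Fintype.card k : ℝ) ^ (2 * P.natDegree * n)

theorem rootShare_nonneg (F : MvPolynomial (Fin n) (Polynomial k)) (P : Polynomial k) :
    0 ≤ rootShare F P := by
  unfold rootShare; positivity

theorem rootCount_le_card (F : MvPolynomial (Fin n) (Polynomial k)) (P : Polynomial k) :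
    rootCount F P ≤ Fintype.card k ^ (2 * P.natDegree * n) :=
  (Finite.card_subtype_le _).trans_eq natCard_box

theorem rootShare_le_one (F : MvPolynomial (Fin n) (Polynomial k)) (P : Polynomial k) :
    rootShare F P ≤ 1 := by
  have hq := q_pos (k := k)
  rw [rootShare, div_le_one (by positivity)]
  exact_mod_cast rootCount_le_card F P

/-- **One square.** -/
theorem share_sq_dvd (F : MvPolynomial (Fin n) (Polynomial k)) {P : Polynomial k} (hP : P.Monic)
    (hN : 2 * P.natDegree ≤ N) : share n N (fun a => P ^ 2 ∣ eval a F) = rootShare F P := by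
  have hd : (P ^ 2).natDegree = 2 * P.natDegree := Polynomial.natDegree_pow P 2
  rw [share_of_mod (hP.pow 2) (hd ▸ hN) fun a b h => dvd_eval_iff F h]
  rw [rootShare, rootCount, hd]

/-- **The Chinese remainder theorem**, as a bijection. -/
theorem exists_crtEquiv {S : Finset (Polynomial k)} (hS : ∀ P ∈ S, P.Monic ∧ Irreducible P)
    {D : ℕ} (hD : D = ∑ P ∈ S, 2 * P.natDegree) :
    ∃ e : Deg k D ≃ ∀ P : S, Deg k (2 * P.1.natDegree),
      ∀ a (P : S), P.1 ^ 2 ∣ a.1 - (e a P).1 := by
  have hred : ∀ (P : S) (r : Deg k D),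
      r.1 %ₘ P.1 ^ 2 ∈ Polynomial.degreeLT k (2 * P.1.natDegree) := fun P r => by
    have h := Polynomial.degree_modByMonic_lt r.1 ((hS P.1 P.2).1.pow 2)
    rw [Polynomial.degree_eq_natDegree ((hS P.1 P.2).1.pow 2).ne_zero,
      Polynomial.natDegree_pow] at h
    exact Polynomial.mem_degreeLT.mpr h
  let ψ : Deg k D → ∀ P : S, Deg k (2 * P.1.natDegree) := fun r P => ⟨_, hred P r⟩
  have hsub : ∀ (P : S) (r : Polynomial k), P.1 ^ 2 ∣ r - r %ₘ P.1 ^ 2 := fun P r =>
    ⟨r /ₘ P.1 ^ 2, by linear_combination (Polynomial.modByMonic_add_div r (P.1 ^ 2)).symm⟩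
  have hinj : Function.Injective ψ := fun r r' h => by
    refine Subtype.ext (sub_eq_zero.mp (Polynomial.eq_zero_of_dvd_of_degree_lt
      (p := ∏ P ∈ S, P ^ 2) ?_ ?_))
    · refine Finset.prod_dvd_of_isRelPrime (fun P hP Q hQ hne => ?_) fun P hP => ?_
      · refine (Irreducible.isRelPrime_iff_not_dvd (hS P hP).2).mpr (fun hd => hne ?_) |>.pow
        exact Polynomial.eq_of_monic_of_associated (hS P hP).1 (hS Q hQ).1
          ((hS P hP).2.associated_of_dvd (hS Q hQ).2 hd)
      · have h3 : r.1 %ₘ P ^ 2 = r'.1 %ₘ P ^ 2 :=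
          congrArg Subtype.val (congrFun h ⟨P, hP⟩)
        have h4 := dvd_sub (hsub ⟨P, hP⟩ r.1) (hsub ⟨P, hP⟩ r'.1)
        rwa [h3, sub_sub_sub_cancel_right] at h4
    · rw [Polynomial.degree_prod, Finset.sum_congr rfl fun P hP =>
        Polynomial.degree_eq_natDegree (pow_ne_zero 2 (hS P hP).2.ne_zero), ← Nat.cast_sum,
        Finset.sum_congr rfl fun P _ => Polynomial.natDegree_pow P 2, ← hD]
      exact Polynomial.mem_degreeLT.mp (Submodule.sub_mem _ r.2 r'.2)
  have hbij : Function.Bijective ψ := hinj.bijective_of_nat_card_le (by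
    rw [Nat.card_pi, natCard_deg, hD, ← Finset.prod_pow_eq_pow_sum,
      ← Finset.prod_coe_sort S (fun P => Fintype.card k ^ (2 * P.natDegree))]
    exact (Finset.prod_congr rfl fun P _ => natCard_deg _).le)
  exact ⟨Equiv.ofBijective ψ hbij, fun a P => hsub P a.1⟩

/-- **Several squares.** -/
theorem share_forall_not_sq_dvd (F : MvPolynomial (Fin n) (Polynomial k))
    {S : Finset (Polynomial k)} (hS : ∀ P ∈ S, P.Monic ∧ Irreducible P)
    (hN : ∑ P ∈ S, 2 * P.natDegree ≤ N) :
    share n N (fun a => ∀ P ∈ S, ¬ P ^ 2 ∣ eval a F) = ∏ P ∈ S, (1 - rootShare F P) := by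
  set M := ∏ P ∈ S, P ^ 2
  have hM : M.Monic := Polynomial.monic_prod_of_monic _ _ fun P hP => (hS P hP).1.pow 2
  have hdeg : M.natDegree = ∑ P ∈ S, 2 * P.natDegree := by
    rw [Polynomial.natDegree_prod_of_monic _ _ fun P hP => (hS P hP).1.pow 2]
    exact Finset.sum_congr rfl fun P _ => Polynomial.natDegree_pow P 2
  have hs : ∀ a b : Fin n → Polynomial k, (∀ i, M ∣ a i - b i) →
      ((∀ P ∈ S, ¬ P ^ 2 ∣ eval a F) ↔ ∀ P ∈ S, ¬ P ^ 2 ∣ eval b F) := fun a b h =>
    forall₂_congr fun P hP => not_congr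
      (dvd_eval_iff F fun i => (Finset.dvd_prod_of_mem (fun P => P ^ 2) hP).trans (h i))
  rw [share_of_mod hM (hdeg ▸ hN) hs]
  obtain ⟨e, he⟩ := exists_crtEquiv hS hdeg
  let E : Box k n M.natDegree ≃ ∀ P : S, Box k n (2 * P.1.natDegree) :=
    (Equiv.piCongrRight fun _ => e).trans
      (Equiv.piComm fun (_ : Fin n) (P : S) => Deg k (2 * P.1.natDegree))
  have e1 : {x : Box k n M.natDegree // ∀ P ∈ S, ¬ P ^ 2 ∣ eval (pt x) F} ≃
      ∀ P : S, {y : Box k n (2 * P.1.natDegree) // ¬ P.1 ^ 2 ∣ eval (pt y) F} :=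
    (E.subtypeEquiv (q := fun w => ∀ P : S, ¬ P.1 ^ 2 ∣ eval (pt (w P)) F) fun x => by
      have hiff : ∀ P : S, P.1 ^ 2 ∣ eval (pt x) F ↔ P.1 ^ 2 ∣ eval (pt (E x P)) F := fun P =>
        dvd_eval_iff F fun i => he (x i) P
      exact ⟨fun h P hd => h P.1 P.2 ((hiff P).mpr hd),
        fun h P hP hd => h ⟨P, hP⟩ ((hiff ⟨P, hP⟩).mp hd)⟩).trans
      (Equiv.subtypePiEquivPi (p := fun (P : S) (y : Box k n (2 * P.1.natDegree)) =>
        ¬ P.1 ^ 2 ∣ eval (pt y) F))
  rw [Nat.card_congr e1, Nat.card_pi, Nat.cast_prod, hdeg, Finset.sum_mul,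
    ← Finset.prod_pow_eq_pow_sum,
    ← Finset.prod_coe_sort S (fun P => (Fintype.card k : ℝ) ^ (2 * P.natDegree * n)),
    ← Finset.prod_div_distrib, ← Finset.prod_coe_sort S]
  refine Finset.prod_congr rfl fun P _ => ?_
  haveI := Fintype.ofFinite (Box k n (2 * P.1.natDegree))
  have hq := q_pos (k := k)
  rw [Nat.card_eq_fintype_card, Fintype.card_subtype_compl, ← Nat.card_eq_fintype_card,
    ← Nat.card_eq_fintype_card, natCard_box, ← rootCount, Nat.cast_sub (rootCount_le_card F P.1),
    Nat.cast_pow, sub_div, div_self (by positivity), rootShare]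

end FA.SquarefreeFFMulti
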