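import Mathlib.Algebra.MvPolynomial.PDeriv
import Mathlib.Algebra.MvPolynomial.Degrees
import Mathlib.RingTheory.Polynomial.Resultant.Basic
import Mathlib.Tactic

/-!
# Degree in the variables and height in `t`

`Bd F d h`: the total degree of `F` is at most `d` and its coefficients, polynomials in `t`, have
degree at most `h`. The bounds add under products and pass to values and to resultants.
-/

set_option autoImplicit false
set_option linter.style.openClassical false
set_option linter.style.haveILetI false

noncomputable section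

open scoped Classical

namespace FA.SquarefreeFFMulti

open MvPolynomial

variable {k : Type*} [Field k] {σ τ : Type*}

/-- Total degree at most `d`, coefficients of degree at most `h`. -/
def Bd (F : MvPolynomial σ (Polynomial k)) (d h : ℕ) : Prop :=
  F.totalDegree ≤ d ∧ ∀ s, (F.coeff s).natDegree ≤ h

theorem bd_self (F : MvPolynomial σ (Polynomial k)) : ∃ h, Bd F F.totalDegree h :=
  ⟨F.support.sup fun s => (F.coeff s).natDegree, le_rfl, fun s => by
    by_cases hs : s ∈ F.support
    · exact Finset.le_sup (f := fun s => (F.coeff s).natDegree) hs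
    · rw [notMem_support_iff.mp hs, Polynomial.natDegree_zero]
      exact Nat.zero_le _⟩

theorem Bd.mono {F : MvPolynomial σ (Polynomial k)} {d h d' h' : ℕ} (hF : Bd F d h) (hd : d ≤ d')
    (hh : h ≤ h') : Bd F d' h' :=
  ⟨hF.1.trans hd, fun s => (hF.2 s).trans hh⟩

theorem bd_zero (d h : ℕ) : Bd (0 : MvPolynomial σ (Polynomial k)) d h :=
  ⟨by simp, fun s => by simp⟩

theorem bd_C (a : Polynomial k) : Bd (C a : MvPolynomial σ (Polynomial k)) 0 a.natDegree :=
  ⟨by simp, fun s => by rw [coeff_C]; split <;> simp⟩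

theorem bd_X (i : σ) : Bd (X i : MvPolynomial σ (Polynomial k)) 1 0 :=
  ⟨by simp, fun s => by rw [coeff_X]; split <;> simp⟩

theorem Bd.add {F G : MvPolynomial σ (Polynomial k)} {d h : ℕ} (hF : Bd F d h) (hG : Bd G d h) :
    Bd (F + G) d h :=
  ⟨(totalDegree_add _ _).trans (max_le hF.1 hG.1), fun s => by
    rw [coeff_add]
    exact (Polynomial.natDegree_add_le _ _).trans (max_le (hF.2 s) (hG.2 s))⟩

theorem Bd.mul {F G : MvPolynomial σ (Polynomial k)} {d h d' h' : ℕ} (hF : Bd F d h)
    (hG : Bd G d' h') : Bd (F * G) (d + d') (h + h') :=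
  ⟨(totalDegree_mul _ _).trans (Nat.add_le_add hF.1 hG.1), fun s => by
    rw [coeff_mul]
    exact Polynomial.natDegree_sum_le_of_forall_le _ _ fun x _ =>
      Polynomial.natDegree_mul_le.trans (Nat.add_le_add (hF.2 _) (hG.2 _))⟩

theorem bd_sum {ι : Type*} (S : Finset ι) (g : ι → MvPolynomial σ (Polynomial k)) {d h : ℕ}
    (hg : ∀ i ∈ S, Bd (g i) d h) : Bd (∑ i ∈ S, g i) d h := by
  induction S using Finset.induction_on with
  | empty => simpa using bd_zero d h
  | insert a S ha ih =>
    rw [Finset.sum_insert ha]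
    exact (hg a (Finset.mem_insert_self _ _)).add
      (ih fun i hi => hg i (Finset.mem_insert_of_mem hi))

theorem bd_prod {ι : Type*} (S : Finset ι) (g : ι → MvPolynomial σ (Polynomial k))
    (d h : ι → ℕ) (hg : ∀ i ∈ S, Bd (g i) (d i) (h i)) :
    Bd (∏ i ∈ S, g i) (∑ i ∈ S, d i) (∑ i ∈ S, h i) := by
  induction S using Finset.induction_on with
  | empty => simpa using bd_C (σ := σ) (1 : Polynomial k)
  | insert a S ha ih =>
    rw [Finset.prod_insert ha, Finset.sum_insert ha, Finset.sum_insert ha]
    exact (hg a (Finset.mem_insert_self _ _)).mul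
      (ih fun i hi => hg i (Finset.mem_insert_of_mem hi))

theorem Bd.pow {F : MvPolynomial σ (Polynomial k)} {d h : ℕ} (hF : Bd F d h) (n : ℕ) :
    Bd (F ^ n) (n * d) (n * h) := by
  simpa using bd_prod (Finset.range n) (fun _ => F) (fun _ => d) (fun _ => h) fun _ _ => hF

/-- A linear substitution of height `E` adds `E` per degree to the height. -/
theorem Bd.aeval {F : MvPolynomial σ (Polynomial k)} {d h E : ℕ} (hF : Bd F d h)
    (g : σ → MvPolynomial τ (Polynomial k)) (hg : ∀ i, Bd (g i) 1 E) :
    Bd (aeval g F) d (h + d * E) := by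
  rw [F.as_sum, map_sum]
  refine bd_sum _ _ fun s hs => ?_
  rw [aeval_monomial, algebraMap_eq]
  have hs' : ∑ i ∈ s.support, s i ≤ d := (le_totalDegree hs).trans hF.1
  refine ((bd_C _).mul (bd_prod _ _ _ _ fun i _ => (hg i).pow (s i))).mono ?_ ?_
  · simpa using hs'
  · exact Nat.add_le_add (hF.2 s)
      (le_of_eq_of_le (Finset.sum_mul _ _ _).symm (Nat.mul_le_mul_right _ hs'))

/-- The degree of a value. -/
theorem Bd.natDegree_eval_le {F : MvPolynomial σ (Polynomial k)} {d h M : ℕ} (hF : Bd F d h)
    (a : σ → Polynomial k) (ha : ∀ i, (a i).natDegree ≤ M) :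
    (eval a F).natDegree ≤ h + d * M := by
  rw [F.as_sum, map_sum]
  refine Polynomial.natDegree_sum_le_of_forall_le _ _ fun s hs => ?_
  rw [eval_monomial]
  refine Polynomial.natDegree_mul_le.trans (Nat.add_le_add (hF.2 s) ?_)
  refine (Polynomial.natDegree_prod_le _ _).trans ?_
  refine (Finset.sum_le_sum (g := fun i => s i * M) fun i _ =>
    Polynomial.natDegree_pow_le.trans (Nat.mul_le_mul_left _ (ha i))).trans ?_
  rw [← Finset.sum_mul]
  exact Nat.mul_le_mul_right _ ((le_totalDegree hs).trans hF.1)

/-- The bounds of a resultant. -/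
theorem bd_resultant {P Q : Polynomial (MvPolynomial σ (Polynomial k))} {m n d h : ℕ}
    (hP : ∀ i, Bd (P.coeff i) d h) (hQ : ∀ i, Bd (Q.coeff i) d h) :
    Bd (Polynomial.resultant P Q m n) ((m + n) * d) ((m + n) * h) := by
  rw [Polynomial.resultant, Matrix.det_apply]
  refine bd_sum _ _ fun σ' _ => ?_
  have hprod : Bd (∏ i, Polynomial.sylvester P Q m n (σ' i) i) ((m + n) * d) ((m + n) * h) := by
    refine (bd_prod _ _ (fun _ => d) (fun _ => h) fun i _ => ?_).mono (le_of_eq (by simp))
      (le_of_eq (by simp))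
    rw [Polynomial.sylvester, Matrix.of_apply]
    induction i using Fin.addCases with
    | left l =>
      rw [Fin.addCases_left]
      split_ifs
      · exact hQ _
      · exact bd_zero _ _
    | right l =>
      rw [Fin.addCases_right]
      split_ifs
      · exact hP _
      · exact bd_zero _ _
  rcases Int.units_eq_one_or (Equiv.Perm.sign σ') with e | e <;> rw [e]
  · simpa using hprod
  · refine ⟨by simpa using hprod.1, fun s => ?_⟩
    simpa using hprod.2 s

theorem bd_pderiv {F : MvPolynomial σ (Polynomial k)} {d h : ℕ} (hF : Bd F d h) (i : σ) :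
    Bd (pderiv i F) d h := by
  refine ⟨Finset.sup_le fun s hs => ?_, fun s => ?_⟩
  · rw [mem_support_iff, coeff_pderiv] at hs
    have h1 := (le_totalDegree (mem_support_iff.2 (left_ne_zero_of_mul hs))).trans hF.1
    rw [Finsupp.sum_add_index' (fun _ => rfl) fun _ _ _ => rfl] at h1
    omega
  · rw [coeff_pderiv]
    refine Polynomial.natDegree_mul_le.trans ?_
    rw [← Nat.cast_add_one, Polynomial.natDegree_natCast, add_zero]
    exact hF.2 _

end FA.SquarefreeFFMulti
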