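import Fermat.Agent.SquarefreeFFMulti.Shear
import Fermat.Agent.SquarefreeFF.Main
import Mathlib.Algebra.MvPolynomial.SchwartzZippel

/-!
# Boxes of polynomials

`Box k n N` consists of the `n`-tuples of polynomials of degree less than `N`. A nonzero polynomial
vanishes on few points of a grid, and one in a single variable at few points modulo an irreducible.
-/

set_option autoImplicit false
set_option linter.style.openClassical false
set_option linter.style.haveILetI false
set_option linter.unusedSectionVars false

noncomputable section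

open scoped Classical

namespace FA.SquarefreeFFMulti

open MvPolynomial FA.SquarefreeFF

variable {k : Type*} [Field k] [Fintype k] {n N r γ : ℕ}

variable (k) in
/-- The tuples of polynomials of degree less than `N`. -/
abbrev Box (n N : ℕ) : Type _ := Fin n → Deg k N

/-- A tuple as a point. -/
def pt (a : Box k n N) : Fin n → Polynomial k := fun i => (a i).1

theorem natCard_box : Nat.card (Box k n N) = Fintype.card k ^ (N * n) := by
  rw [Nat.card_fun, Nat.card_fin, natCard_deg, ← pow_mul]

/-- The proportion of a box with a property. -/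
def share (n N : ℕ) (s : (Fin n → Polynomial k) → Prop) : ℝ :=
  (Nat.card {a : Box k n N // s (pt a)} : ℝ) / (Fintype.card k : ℝ) ^ (N * n)

theorem share_nonneg (s : (Fin n → Polynomial k) → Prop) : 0 ≤ share n N s := by
  unfold share; positivity

theorem share_mono {s t : (Fin n → Polynomial k) → Prop}
    (h : ∀ a : Box k n N, s (pt a) → t (pt a)) : share n N s ≤ share n N t := by
  refine div_le_div_of_nonneg_right ?_ (by positivity)
  exact_mod_cast Nat.card_le_card_of_injective
    (Subtype.map id fun a ha => h a ha) (Subtype.map_injective _ Function.injective_id)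

theorem share_or_le (s t : (Fin n → Polynomial k) → Prop) :
    share n N (fun a => s a ∨ t a) ≤ share n N s + share n N t := by
  haveI := Fintype.ofFinite (Box k n N)
  rw [share, share, share, ← add_div]
  refine div_le_div_of_nonneg_right ?_ (by positivity)
  rw [Nat.card_eq_fintype_card, Nat.card_eq_fintype_card, Nat.card_eq_fintype_card]
  exact_mod_cast Fintype.card_subtype_or (fun a : Box k n N => s (pt a)) (fun a => t (pt a))

theorem share_exists_le {ι : Type*} (S : Finset ι) (s : ι → (Fin n → Polynomial k) → Prop) :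
    share n N (fun a => ∃ i ∈ S, s i a) ≤ ∑ i ∈ S, share n N (s i) := by
  induction S using Finset.induction_on with
  | empty => simp [share]
  | insert x S hx ih =>
    rw [Finset.sum_insert hx]
    refine le_trans ?_ (le_trans (share_or_le (s x) _) (add_le_add le_rfl ih))
    exact share_mono fun a ⟨i, hi, ha⟩ => (Finset.mem_insert.mp hi).elim
      (fun h => Or.inl (h ▸ ha)) fun h => Or.inr ⟨i, h, ha⟩

/-- A count times `q^e` is a share bound. -/
theorem share_le_of_natCard {e C : ℕ} {s : (Fin n → Polynomial k) → Prop}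
    (h : Nat.card {a : Box k n N // s (pt a)} * Fintype.card k ^ e ≤
      C * Fintype.card k ^ (N * n)) :
    share n N s ≤ (C : ℝ) / (Fintype.card k : ℝ) ^ e := by
  have hq := q_pos (k := k)
  rw [share, div_le_div_iff₀ (by positivity) (by positivity)]
  exact_mod_cast h

/-- **Zeros on a grid**, by Schwartz and Zippel. -/
theorem natCard_grid_zeros_mul_le {K : Type*} [CommRing K] [IsDomain K]
    {R : MvPolynomial (Fin r) K} (hR : R ≠ 0) (g : Fin r → Deg k γ → K)
    (hg : ∀ m, Function.Injective (g m)) :
    Nat.card {b : Box k r γ // eval (fun m => g m (b m)) R = 0} * Fintype.card k ^ γ ≤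
      r * R.totalDegree * Fintype.card k ^ (γ * r) := by
  haveI := Fintype.ofFinite (Deg k γ)
  set Q := Fintype.card k ^ γ
  have hQ : 0 < Q := pow_pos Fintype.card_pos _
  set S : Fin r → Finset K := fun m => Finset.univ.image (g m)
  have hS : ∀ m, (S m).card = Q := fun m => by
    rw [Finset.card_image_of_injective _ (hg m), Finset.card_univ, ← Nat.card_eq_fintype_card,
      natCard_deg]
  have h := schwartz_zippel_sum_degreeOf hR S
  simp only [hS, Finset.prod_const, Finset.card_univ, Fintype.card_fin, ← Finset.sum_div] at h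
  rw [div_le_div_iff₀ (by positivity) (by exact_mod_cast hQ)] at h
  rw [pow_mul]
  refine le_trans (Nat.mul_le_mul_right _ ?_) (le_trans (by exact_mod_cast h)
    (Nat.mul_le_mul_right _ ((Finset.sum_le_card_nsmul _ _ R.totalDegree fun m _ => ?_).trans ?_)))
  · rw [Nat.card_eq_fintype_card, Fintype.card_subtype]
    refine Finset.card_le_card_of_injOn (fun (b : Box k r γ) m => g m (b m)) (fun b hb => ?_)
      fun b _ c _ e => _root_.funext fun m => hg m (congrFun e m)
    rw [Finset.mem_coe, Finset.mem_filter] at hb ⊢
    exact ⟨Fintype.mem_piFinset.2 fun m => Finset.mem_image_of_mem _ (Finset.mem_univ _), hb.2⟩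
  · exact degreeOf_le_totalDegree R m
  · simp

/-- **Few roots modulo an irreducible** off the top coefficient. -/
theorem natCard_roots_le {φ : Polynomial (Polynomial k)} {T : ℕ} (hT : φ.natDegree ≤ T)
    {P : Polynomial k} (hP : Irreducible P) (hlead : ¬ P ∣ φ.coeff T) (g : Deg k γ → Polynomial k)
    (hg : ∀ b c, P ∣ g b - g c → b = c) :
    Nat.card {b : Deg k γ // P ∣ φ.eval (g b)} ≤ T := by
  haveI := Fact.mk hP
  haveI := Fintype.ofFinite (Deg k γ)
  set ψ := φ.map (AdjoinRoot.mk P) with hψ
  have hψ0 : ψ ≠ 0 := fun h => hlead (by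
    rw [← AdjoinRoot.mk_eq_zero, ← Polynomial.coeff_map, ← hψ, h, Polynomial.coeff_zero])
  rw [Nat.card_eq_fintype_card, Fintype.card_subtype]
  refine ((Finset.card_le_card_of_injOn (fun b : Deg k γ => AdjoinRoot.mk P (g b))
    (t := ψ.roots.toFinset) (fun b hb => ?_)
    fun b _ c _ e => hg b c (AdjoinRoot.mk_eq_mk.mp e)).trans
      (Multiset.toFinset_card_le _)).trans
        ((Polynomial.card_roots' _).trans (Polynomial.natDegree_map_le.trans hT))
  rw [Finset.mem_coe, Finset.mem_filter] at hb
  rw [Finset.mem_coe, Multiset.mem_toFinset, Polynomial.mem_roots hψ0, Polynomial.IsRoot, hψ,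
    Polynomial.eval_map, Polynomial.eval₂_at_apply, AdjoinRoot.mk_eq_zero]
  exact hb.2

theorem eq_of_dvd_sub {P : Polynomial k} (hγ : γ ≤ P.natDegree) (hP : P ≠ 0) {b c : Deg k γ}
    (h : P ∣ b.1 - c.1) : b = c := by
  refine Subtype.ext (sub_eq_zero.mp (Polynomial.eq_zero_of_dvd_of_degree_lt h ?_))
  refine lt_of_lt_of_le (Polynomial.mem_degreeLT.mp (Submodule.sub_mem _ b.2 c.2)) ?_
  rw [Polynomial.degree_eq_natDegree hP]
  exact_mod_cast hγ

section

variable {p : ℕ} [Fact p.Prime] [CharP k p]

/-- `a + b^p`. -/
def boxShift (hγ : p * γ ≤ N) (x : Box k n N × Box k n γ) : Box k n N :=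
  fun i => shift hγ (x.1 i, x.2 i)

theorem pt_boxShift (hγ : p * γ ≤ N) (x : Box k n N × Box k n γ) :
    pt (boxShift hγ x) = fun i => (x.1 i).1 + (x.2 i).1 ^ p := rfl

/-- **Transfer to `a + b^p`.** -/
theorem natCard_boxShift (hγ : p * γ ≤ N) (s : Box k n N → Prop) :
    Nat.card {x : Box k n N × Box k n γ // s (boxShift hγ x)} =
      Nat.card {a : Box k n N // s a} * Fintype.card k ^ (γ * n) := by
  let e : Box k n N × Box k n γ ≃ Box k n N × Box k n γ :=
    { toFun := fun x => (boxShift hγ x, x.2)
      invFun := fun x => (fun i => x.1 i - ⟨(x.2 i).1 ^ p, (pow_mem_degreeLT hγ (x.2 i)).1⟩, x.2)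
      left_inv := fun x => Prod.ext (_root_.funext fun i => Subtype.ext (by
        simp [boxShift, shift])) rfl
      right_inv := fun x => Prod.ext (_root_.funext fun i => Subtype.ext (by
        simp [boxShift, shift])) rfl }
  rw [← natCard_box, ← Nat.card_prod,
    Nat.card_congr (e.subtypeEquiv (p := fun x => s (boxShift hγ x)) (q := fun x => s x.1)
      fun x => Iff.rfl)]
  exact Nat.card_congr
    { toFun := fun x => (⟨x.1.1, x.2⟩, x.1.2)
      invFun := fun x => ⟨(x.1.1, x.2), x.1.2⟩
      left_inv := fun x => rfl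
      right_inv := fun x => rfl }

end

end FA.SquarefreeFFMulti
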