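import Fermat.Agent.SquarefreeFFMulti.Bidegree
import Mathlib.Algebra.CharP.Frobenius
import Mathlib.Algebra.MvPolynomial.NoZeroDivisors
import Mathlib.FieldTheory.Perfect
import Mathlib.RingTheory.Polynomial.UniqueFactorization

/-!
# The twisted derivatives of a polynomial with coefficients in `k[t]`

`twist F s = Dt F + ∑ s_i ∂_i F` takes at `a` with `a' = s` the value `(F(a))'`. Over a perfect
field an irreducible has one of these derivatives nonzero, so a squarefree `F` is coprime to
`twist F s` unless one coordinate of `s` is determined by the others.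
-/

set_option autoImplicit false
set_option linter.style.openClassical false
set_option linter.style.haveILetI false

noncomputable section

open scoped Classical

namespace FA.SquarefreeFFMulti

open MvPolynomial

variable {k : Type*} [Field k] {σ : Type*}

/-- The derivative of the coefficients. -/
def Dt (F : MvPolynomial σ (Polynomial k)) : MvPolynomial σ (Polynomial k) :=
  ∑ s ∈ F.support, monomial s (F.coeff s).derivative

theorem coeff_Dt (F : MvPolynomial σ (Polynomial k)) (s : σ →₀ ℕ) :
    (Dt F).coeff s = (F.coeff s).derivative := by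
  rw [Dt, coeff_sum]
  simp only [coeff_monomial, Finset.sum_ite_eq']
  split_ifs with h
  · rfl
  · rw [notMem_support_iff.mp h, Polynomial.derivative_zero]

theorem Dt_add (F G : MvPolynomial σ (Polynomial k)) : Dt (F + G) = Dt F + Dt G :=
  MvPolynomial.ext _ _ fun s => by simp [coeff_Dt]

theorem Dt_C (a : Polynomial k) :
    Dt (C a : MvPolynomial σ (Polynomial k)) = C a.derivative :=
  MvPolynomial.ext _ _ fun s => by rw [coeff_Dt, coeff_C, coeff_C]; split <;> simp

theorem Dt_mul_X (F : MvPolynomial σ (Polynomial k)) (i : σ) : Dt (F * X i) = Dt F * X i :=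
  MvPolynomial.ext _ _ fun s => by
    rw [coeff_Dt, coeff_mul_X', coeff_mul_X']
    split <;> simp [coeff_Dt]

theorem Dt_mul (F G : MvPolynomial σ (Polynomial k)) : Dt (F * G) = Dt F * G + F * Dt G := by
  induction G using MvPolynomial.induction_on with
  | C a =>
    refine MvPolynomial.ext _ _ fun s => ?_
    rw [coeff_Dt, coeff_add, Dt_C, mul_comm F, mul_comm (Dt F), mul_comm F, coeff_C_mul,
      coeff_C_mul, coeff_C_mul, coeff_Dt, Polynomial.derivative_mul]
    ring
  | add u v hu hv => simp only [Dt_add, mul_add, hu, hv]; ring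
  | mul_X u i hu => rw [← mul_assoc, Dt_mul_X, Dt_mul_X, hu]; ring

variable [Fintype σ]

/-- The polynomial whose value at an `a` with `a' = s` is the derivative of the value of `F`. -/
def twist (F : MvPolynomial σ (Polynomial k)) (s : σ → Polynomial k) :
    MvPolynomial σ (Polynomial k) :=
  Dt F + ∑ i, C (s i) * pderiv i F

theorem twist_mul (F G : MvPolynomial σ (Polynomial k)) (s : σ → Polynomial k) :
    twist (F * G) s = twist F s * G + F * twist G s := by
  simp only [twist, Dt_mul, pderiv_mul, mul_add, add_mul, Finset.sum_add_distrib, Finset.sum_mul,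
    Finset.mul_sum]
  rw [Finset.sum_congr rfl fun i _ => (mul_assoc (C (s i)) (pderiv i F) G).symm,
    Finset.sum_congr rfl fun i _ => mul_left_comm (C (s i)) F (pderiv i G)]
  ring

/-- **The chain rule.** -/
theorem derivative_eval (F : MvPolynomial σ (Polynomial k)) (a : σ → Polynomial k) :
    (eval a F).derivative = eval a (twist F fun i => (a i).derivative) := by
  induction F using MvPolynomial.induction_on with
  | C c => simp [twist, Dt_C]
  | add u v hu hv =>
    simp only [map_add, hu, hv, twist, Dt_add, mul_add, Finset.sum_add_distrib]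
    ring
  | mul_X u i hu =>
    simp only [twist, map_add, map_sum, map_mul, eval_C, eval_X, Dt_mul_X,
      Polynomial.derivative_mul, pderiv_mul, pderiv_X, mul_add, Finset.sum_add_distrib] at hu ⊢
    rw [hu]
    simp only [add_mul, Finset.sum_mul, mul_assoc, add_assoc]
    congr 2
    rw [Finset.sum_eq_single i]
    · simp [mul_comm]
    · intro j _ hj
      simp [Ne.symm hj]
    · simp

/-- The expansion to first order. -/
theorem exists_eval_add (F : MvPolynomial σ (Polynomial k)) (a c : σ → Polynomial k)
    (P : Polynomial k) : ∃ z, eval (fun i => a i + P * c i) F =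
      eval a F + P * ∑ i, c i * eval a (pderiv i F) + P ^ 2 * z := by
  induction F using MvPolynomial.induction_on with
  | C x => exact ⟨0, by simp⟩
  | add u v hu hv =>
    obtain ⟨z, hz⟩ := hu
    obtain ⟨w, hw⟩ := hv
    refine ⟨z + w, ?_⟩
    simp only [map_add, hz, hw, mul_add, Finset.sum_add_distrib]
    ring
  | mul_X u i hu =>
    obtain ⟨z, hz⟩ := hu
    refine ⟨z * (a i + P * c i) + c i * ∑ j, c j * eval a (pderiv j u), ?_⟩
    have hsum : ∑ j, c j * eval a (pderiv j (u * X i)) =
        (∑ j, c j * eval a (pderiv j u)) * a i + c i * eval a u := by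
      simp only [pderiv_mul, map_add, map_mul, eval_X, mul_add, Finset.sum_add_distrib,
        Finset.sum_mul, pderiv_X, mul_assoc]
      congr 1
      rw [Finset.sum_eq_single i]
      · simp
      · intro j _ hj
        simp [Ne.symm hj]
      · simp
    rw [hsum, map_mul, map_mul, eval_X, eval_X, hz]
    ring

omit [Fintype σ] in
theorem dvd_eval_sub (F : MvPolynomial σ (Polynomial k)) {M : Polynomial k}
    {a b : σ → Polynomial k} (h : ∀ i, M ∣ a i - b i) : M ∣ eval a F - eval b F := by
  induction F using MvPolynomial.induction_on with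
  | C x => simp
  | add u v hu hv =>
    rw [map_add, map_add, add_sub_add_comm]
    exact dvd_add hu hv
  | mul_X u i hu =>
    rw [map_mul, map_mul, eval_X, eval_X]
    exact dvd_mul_sub_mul hu (h i)

omit [Fintype σ] in
theorem dvd_eval_iff (F : MvPolynomial σ (Polynomial k)) {M : Polynomial k}
    {a b : σ → Polynomial k} (h : ∀ i, M ∣ a i - b i) : M ∣ eval a F ↔ M ∣ eval b F :=
  dvd_iff_dvd_of_dvd_sub (dvd_eval_sub F h)

theorem bd_twist {F : MvPolynomial σ (Polynomial k)} {d h N : ℕ} (hF : Bd F d h)
    (s : σ → Polynomial k) (hs : ∀ i, (s i).natDegree ≤ N) : Bd (twist F s) d (h + N) := by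
  refine Bd.add ⟨?_, fun u => ?_⟩ (bd_sum _ _ fun i _ => ?_)
  · refine (Finset.sup_le fun u hu => ?_).trans hF.1
    refine le_totalDegree (mem_support_iff.2 fun h0 => mem_support_iff.1 hu ?_)
    rw [coeff_Dt, h0, Polynomial.derivative_zero]
  · rw [coeff_Dt]
    exact (Polynomial.natDegree_derivative_le _).trans
      ((Nat.sub_le _ _).trans ((hF.2 u).trans (Nat.le_add_right _ _)))
  · exact (((bd_C (s i)).mono le_rfl (hs i)).mul (bd_pderiv hF i)).mono (zero_add d).le
      (add_comm N h).le

omit [Fintype σ] in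
theorem not_dvd_pderiv {g : MvPolynomial σ (Polynomial k)} {i : σ} (h : pderiv i g ≠ 0) :
    ¬ g ∣ pderiv i g := fun hd => by
  refine absurd (totalDegree_le_of_dvd_of_isDomain hd h) (not_le.2 ?_)
  obtain ⟨s, hs, he⟩ := Finset.exists_mem_eq_sup (pderiv i g).support (support_nonempty.2 h)
    fun s => s.sum fun _ n => n
  rw [mem_support_iff, coeff_pderiv] at hs
  have h1 := le_totalDegree (mem_support_iff.2 (left_ne_zero_of_mul hs))
  rw [Finsupp.sum_add_index' (fun _ => rfl) (fun _ _ _ => rfl), Finsupp.sum_single_index rfl] at h1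
  rw [totalDegree, he]
  omega

omit [Fintype σ] in
theorem not_dvd_Dt {g : MvPolynomial σ (Polynomial k)} (h : Dt g ≠ 0) : ¬ g ∣ Dt g := by
  rintro ⟨Q, hQ⟩
  have hg0 : g ≠ 0 := left_ne_zero_of_mul (hQ ▸ h)
  have hQ0 : Q ≠ 0 := right_ne_zero_of_mul (hQ ▸ h)
  have hle : (Dt g).totalDegree ≤ g.totalDegree := Finset.sup_le fun u hu =>
    le_totalDegree (mem_support_iff.2 fun h0 => mem_support_iff.1 hu (by
      rw [coeff_Dt, h0, Polynomial.derivative_zero]))
  rw [hQ, totalDegree_mul_of_isDomain hg0 hQ0] at hle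
  have hC : Q = C (Q.coeff 0) := totalDegree_eq_zero_iff_eq_C.mp (by omega)
  obtain ⟨s, hs⟩ := exists_coeff_ne_zero h
  have h1 := congrArg (coeff s) hQ
  rw [hC, mul_comm, coeff_C_mul, coeff_Dt] at h1
  rw [coeff_Dt] at hs
  have h2 := Polynomial.natDegree_derivative_lt (p := g.coeff s) fun h0 => hs (by
    rw [Polynomial.eq_C_of_natDegree_eq_zero h0, Polynomial.derivative_C])
  rw [h1, Polynomial.natDegree_mul (left_ne_zero_of_mul (h1 ▸ hs))
    (right_ne_zero_of_mul (h1 ▸ hs))] at h2
  omega

omit [Fintype σ] in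
/-- Over a perfect field an irreducible polynomial has a nonzero derivative. -/
theorem exists_pderiv_ne_zero_or [Fintype k] {g : MvPolynomial σ (Polynomial k)}
    (hg : Irreducible g) : (∃ i, pderiv i g ≠ 0) ∨ Dt g ≠ 0 := by
  by_contra! hno
  obtain ⟨hno, hDt⟩ := hno
  obtain ⟨p, hp⟩ := CharP.exists k
  haveI := hp
  haveI : Fact p.Prime := ⟨CharP.char_is_prime k p⟩
  have hp0 : p ≠ 0 := (Fact.out : p.Prime).ne_zero
  haveI : ExpChar k p := ExpChar.prime Fact.out
  haveI : ExpChar (Polynomial k) p := ExpChar.prime Fact.out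
  haveI : ExpChar (MvPolynomial σ (Polynomial k)) p := ExpChar.prime Fact.out
  have hdvd : ∀ s ∈ g.support, ∀ i, p ∣ s i := fun s hs i => by
    rcases Nat.eq_zero_or_pos (s i) with h | h
    · simp [h]
    have h1 := congrArg (coeff (s - Finsupp.single i 1)) (hno i)
    rw [coeff_pderiv, coeff_zero, tsub_add_cancel_of_le (Finsupp.single_le_iff.2 h),
      mul_eq_zero] at h1
    refine (CharP.cast_eq_zero_iff (Polynomial k) p _).1 ?_
    have h2 := h1.resolve_left (mem_support_iff.1 hs)
    rw [Finsupp.tsub_apply, Finsupp.single_eq_same] at h2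
    rw [← h2, ← Nat.cast_add_one, Nat.sub_add_cancel h]
  have hroot : ∀ s, ∃ d : Polynomial k, d ^ p = g.coeff s := fun s => by
    have hder : (g.coeff s).derivative = 0 := by rw [← coeff_Dt, hDt, coeff_zero]
    haveI : PerfectRing k p := inferInstance
    refine ⟨(Polynomial.contract p (g.coeff s)).map ((frobeniusEquiv k p).symm : k →+* k), ?_⟩
    rw [← Polynomial.map_frobenius_expand, Polynomial.map_expand, Polynomial.map_map,
      show (frobenius k p).comp ((frobeniusEquiv k p).symm : k →+* k) = RingHom.id k from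
        RingHom.ext fun x => frobenius_apply_frobeniusEquiv_symm _ _ x,
      Polynomial.map_id, Polynomial.expand_contract p hder hp0]
  choose root hroot using hroot
  have hpow : g = (∑ s ∈ g.support,
      monomial (Finsupp.mapRange (· / p) (Nat.zero_div p) s) (root s)) ^ p := by
    rw [sum_pow_char p]
    conv_lhs => rw [g.as_sum]
    refine Finset.sum_congr rfl fun s hs => ?_
    rw [monomial_pow, hroot]
    refine congrArg (fun a => monomial a (g.coeff s)) (Finsupp.ext fun i => ?_)
    simp [Nat.mul_div_cancel' (hdvd s hs i)]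
  exact not_irreducible_pow (Fact.out : p.Prime).ne_one (hpow ▸ hg)

/-- **Coprimality of the twists**, off finitely many one-coordinate conditions. -/
theorem exists_exceptional [Fintype k] {F : MvPolynomial σ (Polynomial k)} (hF : Squarefree F) :
    ∃ T : Finset (MvPolynomial σ (Polynomial k)),
      (∀ g ∈ T, ∃ j, ∀ s s' : σ → Polynomial k, (∀ i, i ≠ j → s i = s' i) →
        g ∣ twist g s → g ∣ twist g s' → s j = s' j) ∧
      ∀ s, ¬ IsRelPrime F (twist F s) → ∃ g ∈ T, g ∣ twist g s := by
  refine ⟨(UniqueFactorizationMonoid.factors F).toFinset.filter fun g => ∃ i, pderiv i g ≠ 0,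
    fun g hg => ?_, fun s hs => ?_⟩
  · obtain ⟨hg, j, hj⟩ := Finset.mem_filter.mp hg
    have hirr := UniqueFactorizationMonoid.irreducible_of_factor g (Multiset.mem_toFinset.mp hg)
    refine ⟨j, fun s s' hss h h' => by_contra fun hne => ?_⟩
    have h1 : g ∣ C (s j - s' j) * pderiv j g := by
      have hd := dvd_sub h h'
      rwa [twist, twist, add_sub_add_left_eq_sub, ← Finset.sum_sub_distrib,
        Finset.sum_eq_single j (fun i _ hi => by rw [hss i hi, sub_self]) (by simp),
        ← sub_mul, ← C_sub] at hd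
    rcases hirr.prime.dvd_mul.mp h1 with h2 | h2
    · have hd := totalDegree_le_of_dvd_of_isDomain h2 (C_ne_zero.2 (sub_ne_zero.2 hne))
      rw [totalDegree_C, Nat.le_zero] at hd
      refine hj ?_
      rw [totalDegree_eq_zero_iff_eq_C.mp hd, pderiv_C]
    · exact not_dvd_pderiv hj h2
  obtain ⟨d, hdF, hdG, hd⟩ : ∃ d, d ∣ F ∧ d ∣ twist F s ∧ ¬ IsUnit d := by
    by_contra! hno
    exact hs fun d hdF hdG => hno d hdF hdG
  obtain ⟨Q, hQ, hQd⟩ :=
    WfDvdMonoid.exists_irreducible_factor hd (ne_zero_of_dvd_ne_zero hF.ne_zero hdF)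
  obtain ⟨g, hg, hass⟩ :=
    UniqueFactorizationMonoid.exists_mem_factors_of_dvd hF.ne_zero hQ (hQd.trans hdF)
  have hgf : g ∣ F := hass.dvd'.trans (hQd.trans hdF)
  have hgD : g ∣ twist F s := hass.dvd'.trans (hQd.trans hdG)
  have hirr := UniqueFactorizationMonoid.irreducible_of_factor g hg
  obtain ⟨M, hM⟩ := hgf
  rw [hM, twist_mul, dvd_add_left (dvd_mul_right _ _)] at hgD
  rcases hirr.prime.dvd_mul.mp hgD with h | h
  · refine ⟨g, Finset.mem_filter.mpr ⟨Multiset.mem_toFinset.mpr hg, ?_⟩, h⟩
    by_contra! hno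
    refine not_dvd_Dt ((exists_pderiv_ne_zero_or hirr).resolve_left (by simpa using hno)) ?_
    simpa [twist, hno] using h
  · exact absurd (hF g (hM ▸ mul_dvd_mul_left g h)) hirr.not_isUnit

end FA.SquarefreeFFMulti
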