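import Fermat.Agent.SquarefreeFFMulti.Main
import Mathlib.AlgebraicGeometry.EllipticCurve.Weierstrass

/-!
# Elliptic curves over `F_q(t)` with squarefree discriminant

`4A³ + 27B²` is squarefree as a polynomial in `A`, `B` and no square of an irreducible divides all
its values: in characteristic at least 5 a positive proportion of the curves `y² = x³ + Ax + B`
have squarefree discriminant, and these have multiplicative reduction at every bad finite place.
-/

set_option autoImplicit false
set_option linter.style.openClassical false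
set_option linter.style.haveILetI false

noncomputable section

open scoped Classical Topology
open Filter

namespace FA.SquarefreeFFMulti

open MvPolynomial

variable {k : Type*} [Field k]

variable (k) in
/-- The form `4A³ + 27B²`. -/
def discForm : MvPolynomial (Fin 2) (Polynomial k) :=
  C (Polynomial.C 4) * X 0 ^ 3 + C (Polynomial.C 27) * X 1 ^ 2

/-- The curve `y² = x³ + Ax + B` over `k[t]`. -/
def shortModel (a : Fin 2 → Polynomial k) : WeierstrassCurve (Polynomial k) :=
  ⟨0, 0, 0, a 0, a 1⟩

theorem eval_discForm (a : Fin 2 → Polynomial k) :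
    eval a (discForm k) = 4 * a 0 ^ 3 + 27 * a 1 ^ 2 := by
  simp [discForm, map_ofNat]

theorem shortModel_Δ (a : Fin 2 → Polynomial k) :
    (shortModel a).Δ = -16 * eval a (discForm k) := by
  rw [eval_discForm]
  simp only [shortModel, WeierstrassCurve.Δ, WeierstrassCurve.b₂, WeierstrassCurve.b₄,
    WeierstrassCurve.b₆, WeierstrassCurve.b₈]
  ring

theorem shortModel_c₄ (a : Fin 2 → Polynomial k) : (shortModel a).c₄ = -48 * a 0 := by
  simp only [shortModel, WeierstrassCurve.c₄, WeierstrassCurve.b₂, WeierstrassCurve.b₄]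
  ring

/-- `4A³ + 27B²` is squarefree. -/
theorem squarefree_discForm (h2 : (2 : k) ≠ 0) (h3 : (3 : k) ≠ 0) : Squarefree (discForm k) := by
  have hu : ∀ c : k, c ≠ 0 → IsUnit (C (Polynomial.C c) : MvPolynomial (Fin 2) (Polynomial k)) :=
    fun c hc => (Polynomial.isUnit_C.2 (Ne.isUnit hc)).map C
  have h54 : (54 : k) ≠ 0 := by
    rw [show (54 : k) = 2 * 3 ^ 3 by norm_num]
    exact mul_ne_zero h2 (pow_ne_zero _ h3)
  have h12 : (12 : k) ≠ 0 := by
    rw [show (12 : k) = 2 ^ 2 * 3 by norm_num]
    exact mul_ne_zero (pow_ne_zero _ h2) h3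
  have hne : discForm k ≠ 0 := fun e => h3 <| by
    have h := congrArg (fun F => Polynomial.eval 0 (eval ![0, 1] F)) e
    simp only [discForm, map_add, map_mul, map_pow, eval_C, eval_X, map_zero, Matrix.cons_val_zero,
      Matrix.cons_val_one, Polynomial.eval_zero] at h
    simp only [ne_eq, OfNat.ofNat_ne_zero, not_false_eq_true, zero_pow, mul_zero, zero_add,
      one_pow, mul_one, Polynomial.eval_C] at h
    exact pow_eq_zero_iff (n := 3) (by norm_num) |>.mp (by norm_num; exact h)
  refine (squarefree_iff_no_irreducibles hne).mpr fun Q hQ hd => ?_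
  obtain ⟨M, hM⟩ := hd
  have hder : ∀ i, Q ∣ pderiv i (discForm k) := fun i => by
    rw [hM]
    exact ⟨2 * pderiv i Q * M + Q * pderiv i M, by simp only [pderiv_mul]; ring⟩
  have h1 : Q ∣ X 1 := by
    have h : Q ∣ C (Polynomial.C (54 : k)) * X 1 := by
      convert hder 1 using 1
      rw [discForm, map_add, pderiv_C_mul, pderiv_C_mul, pderiv_pow, pderiv_pow, pderiv_X_self,
        pderiv_X_of_ne (by decide : (0 : Fin 2) ≠ 1)]
      simp only [map_ofNat]
      push_cast
      ring
    exact ((hu _ h54).dvd_mul_left).mp h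
  have h0 : Q ∣ X 0 := by
    have h : Q ∣ C (Polynomial.C (12 : k)) * X 0 ^ 2 := by
      convert hder 0 using 1
      rw [discForm, map_add, pderiv_C_mul, pderiv_C_mul, pderiv_pow, pderiv_pow, pderiv_X_self,
        pderiv_X_of_ne (by decide : (1 : Fin 2) ≠ 0)]
      simp only [map_ofNat]
      push_cast
      ring
    exact hQ.prime.dvd_of_dvd_pow (((hu _ h12).dvd_mul_left).mp h)
  have hX : (X 1 : MvPolynomial (Fin 2) (Polynomial k)) ∣ X 0 := by
    obtain ⟨c, hc⟩ := h1
    rcases (MvPolynomial.X_prime (R := Polynomial k)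
      (i := (1 : Fin 2))).irreducible.isUnit_or_isUnit hc with h | h
    · exact absurd h hQ.not_isUnit
    · exact (Associated.dvd ⟨h.unit⁻¹, by
        rw [hc, mul_assoc, IsUnit.mul_val_inv, mul_one]⟩).trans h0
  have hev := (eval ![(1 : Polynomial k), 0]).map_dvd hX
  simp at hev

variable [Fintype k]

/-- **A positive proportion of curves over `F_q(t)` have squarefree discriminant**, hence are
semistable at every finite place. -/
theorem exists_density_squarefree_discriminant (h2 : (2 : k) ≠ 0) (h3 : (3 : k) ≠ 0) :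
    ∃ δ : ℝ, 0 < δ ∧ Tendsto (fun N => share 2 N fun a : Fin 2 → Polynomial k =>
      Squarefree (shortModel a).Δ ∧ ∀ P : Polynomial k, Irreducible P →
        P ∣ (shortModel a).Δ → ¬ P ∣ (shortModel a).c₄) atTop (𝓝 δ) := by
  have hF := squarefree_discForm h2 h3
  have hu : ∀ c : k, c ≠ 0 → IsUnit (Polynomial.C c) := fun c hc =>
    Polynomial.isUnit_C.2 (Ne.isUnit hc)
  have h16 : IsUnit (-16 : Polynomial k) := by
    rw [show (-16 : Polynomial k) = Polynomial.C (-16 : k) by simp [map_ofNat]]
    exact hu _ (neg_ne_zero.2 (by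
      rw [show (16 : k) = 2 ^ 4 by norm_num]; exact pow_ne_zero _ h2))
  have h48 : IsUnit (-48 : Polynomial k) := by
    rw [show (-48 : Polynomial k) = Polynomial.C (-48 : k) by simp [map_ofNat]]
    exact hu _ (neg_ne_zero.2 (by
      rw [show (48 : k) = 2 ^ 4 * 3 by norm_num]; exact mul_ne_zero (pow_ne_zero _ h2) h3))
  have h27 : IsUnit (27 : Polynomial k) := by
    rw [show (27 : Polynomial k) = Polynomial.C (27 : k) by simp [map_ofNat]]
    exact hu _ (by rw [show (27 : k) = 3 ^ 3 by norm_num]; exact pow_ne_zero _ h3)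
  refine ⟨density (discForm k), (density_pos_iff hF).mpr fun P _ hP => ⟨![0, 1], fun hd => ?_⟩,
    ?_⟩
  · rw [eval_discForm] at hd
    simp at hd
    exact hP.not_isUnit (isUnit_of_dvd_unit ((dvd_pow_self P two_ne_zero).trans hd) h27)
  refine (tendsto_share_squarefree hF).congr fun N => congrArg (share 2 N) (_root_.funext fun a =>
    propext ?_)
  have hass : Squarefree (shortModel a).Δ ↔ Squarefree (eval a (discForm k)) := by
    rw [shortModel_Δ]
    exact ⟨fun h => h.squarefree_of_dvd (dvd_mul_left _ _),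
      fun h => h.squarefree_of_dvd (h16.mul_left_dvd.mpr dvd_rfl)⟩
  rw [hass]
  refine (and_iff_left_of_imp fun hsq P hP hd hc => ?_).symm
  rw [shortModel_c₄, h48.dvd_mul_left] at hc
  rw [shortModel_Δ, h16.dvd_mul_left, eval_discForm] at hd
  have hB : P ∣ a 1 := by
    have h : P ∣ 27 * a 1 ^ 2 :=
      (dvd_add_right (dvd_mul_of_dvd_right (dvd_pow hc three_ne_zero) _)).mp hd
    exact hP.prime.dvd_of_dvd_pow ((h27.dvd_mul_left).mp h)
  rw [eval_discForm] at hsq
  refine hP.not_isUnit (hsq P ?_)
  rw [← pow_two]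
  exact dvd_add (dvd_mul_of_dvd_right ((pow_dvd_pow_of_dvd hc 2).trans
    (pow_dvd_pow _ (by norm_num))) _) (dvd_mul_of_dvd_right (pow_dvd_pow_of_dvd hB 2) _)

end FA.SquarefreeFFMulti
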