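import Fermat.Agent.SquarefreeFFMulti.Count

/-!
# Common prime divisors of high degree

With `a = a₀ + b^p` and `G` depending on `a₀` only, the primes of high degree dividing `F(a)` and
`G(a)` divide the eliminant at the transversal coordinates of `b`, so are few, and each allows few
values of the remaining coordinate.
-/

set_option autoImplicit false
set_option linter.style.openClassical false
set_option linter.style.haveILetI false
set_option linter.unusedSectionVars false

noncomputable section

open scoped Classical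

namespace FA.SquarefreeFFMulti

open MvPolynomial FA.SquarefreeFF

variable {k : Type*} [Field k] [Fintype k] {n N r γ : ℕ}

/-- A prime of degree more than `N / 2` divides both values at `x`. -/
def HighCommon (F G : MvPolynomial (Fin n) (Polynomial k)) (N : ℕ) (x : Fin n → Polynomial k) :
    Prop :=
  ∃ P : Polynomial k, P.Monic ∧ Irreducible P ∧ N / 2 < P.natDegree ∧
    P ∣ eval x F ∧ P ∣ eval x G

variable {p : ℕ} [Fact p.Prime] [CharP k p]

theorem natDegree_pow_deg_le (hγ : p * γ ≤ N) (b : Deg k γ) : (b.1 ^ p).natDegree ≤ N := by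
  refine Polynomial.natDegree_pow_le.trans (le_trans (Nat.mul_le_mul_left p ?_) hγ)
  exact Polynomial.natDegree_le_iff_degree_le.mpr (Polynomial.mem_degreeLT.mp b.2).le

theorem natDegree_deg_le {N : ℕ} (a : Deg k N) : a.1.natDegree ≤ N :=
  Polynomial.natDegree_le_iff_degree_le.mpr (Polynomial.mem_degreeLT.mp a.2).le

/-- **One fibre.** -/
theorem exists_natCard_fibre_le (p : ℕ) [Fact p.Prime] [CharP k p]
    {F : MvPolynomial (Fin (r + 1)) (Polynomial k)} (hF : F ≠ 0) {d h : ℕ} (hFb : Bd F d h) :
    ∃ C M : ℕ, ∀ N γ, M ≤ N → p * γ ≤ N → ∀ G : MvPolynomial (Fin (r + 1)) (Polynomial k),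
      Bd G d (h + N) → IsRelPrime F G → ∀ a : Box k (r + 1) N,
        Nat.card {b : Box k (r + 1) γ // HighCommon F G N fun i => (a i).1 + (b i).1 ^ p} ≤
          C * (N + 1) * Fintype.card k ^ (γ * r) := by
  obtain ⟨w, hw⟩ := exists_direction p hF
  set u := fun m => w m ^ p with hu
  set E0 := Finset.univ.sup fun m => (w m).natDegree
  set E := p * E0
  set TR := (2 * d + 1) * d
  have hE : ∀ m, (u m).natDegree ≤ E := fun m => Polynomial.natDegree_pow_le.trans
    (Nat.mul_le_mul_left p (Finset.le_sup (f := fun m => (w m).natDegree) (Finset.mem_univ m)))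
  set C1 := (2 * d + 1) * (h + 1 + d * E) + TR * (E + 1)
  refine ⟨(r * TR + d * C1) * Fintype.card k ^ (E0 * r), 2 * (lead u F).natDegree + 1,
    fun N γ hMN hγ G hGb hcop a => ?_⟩
  obtain ⟨R, hR0, hRb, hRd⟩ :=
    exists_eliminant hw hE (hFb.mono le_rfl (Nat.le_add_right h N)) hGb hcop
  haveI := Fintype.ofFinite (Deg k γ)
  haveI := Fintype.ofFinite (Deg k (γ + E0))
  have hmem : ∀ (b : Box k (r + 1) γ) m,
      (b m.succ).1 - w m * (b 0).1 ∈ Polynomial.degreeLT k (γ + E0) := fun b m => by
    refine Submodule.sub_mem _ (Polynomial.degreeLT_mono (Nat.le_add_right _ _) (b m.succ).2) ?_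
    rcases eq_or_ne (w m * (b 0).1) 0 with h0 | h0
    · rw [h0]; exact Submodule.zero_mem _
    rw [Polynomial.mem_degreeLT, ← Polynomial.natDegree_lt_iff_degree_lt h0,
      Polynomial.natDegree_mul (left_ne_zero_of_mul h0) (right_ne_zero_of_mul h0)]
    have h1 := (Polynomial.natDegree_lt_iff_degree_lt (right_ne_zero_of_mul h0)).mpr
      (Polynomial.mem_degreeLT.mp (b 0).2)
    have h2 := Finset.le_sup (f := fun m => (w m).natDegree) (Finset.mem_univ m)
    omega
  let ψ : Box k (r + 1) γ → Box k r (γ + E0) × Deg k γ := fun b =>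
    (fun m => ⟨_, hmem b m⟩, b 0)
  have hψ : Function.Injective ψ := fun b c e => by
    obtain ⟨e1, e2⟩ := Prod.ext_iff.mp e
    refine _root_.funext (Fin.cases e2 fun m => Subtype.ext ?_)
    have h1 : (b m.succ).1 - w m * (b 0).1 = (c m.succ).1 - w m * (c 0).1 :=
      congrArg Subtype.val (congrFun e1 m)
    rwa [show b 0 = c 0 from e2, sub_left_inj] at h1
  let g : Fin r → Deg k (γ + E0) → Polynomial k := fun m z =>
    (a m.succ).1 - u m * (a 0).1 + z.1 ^ p
  have hg : ∀ m, Function.Injective (g m) := fun m x y e =>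
    Subtype.ext (pow_char_injective (p := p) (add_right_injective _ e))
  let φ : Box k r (γ + E0) → Polynomial (Polynomial k) := fun y =>
    (fibrePoly u F).map (eval fun m => g m (y m))
  let R' : Box k r (γ + E0) → Polynomial k := fun y => eval (fun m => g m (y m)) R
  have htr : ∀ b : Box k (r + 1) γ,
      transv u (fun i => (a i).1 + (b i).1 ^ p) = fun m => g m ((ψ b).1 m) := fun b =>
    _root_.funext fun m => by
      haveI : ExpChar (Polynomial k) p := ExpChar.prime Fact.out
      simp only [transv, g, ψ, hu, sub_pow_expChar, mul_pow]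
      ring
  have hmap : Nat.card {b : Box k (r + 1) γ // HighCommon F G N fun i => (a i).1 + (b i).1 ^ p} ≤
      Nat.card {y : Box k r (γ + E0) × Deg k γ // R' y.1 = 0 ∨ (R' y.1 ≠ 0 ∧
        ∃ P : Polynomial k, P.Monic ∧ Irreducible P ∧ N / 2 < P.natDegree ∧ P ∣ R' y.1 ∧
          P ∣ (φ y.1).eval ((a 0).1 + y.2.1 ^ p))} := by
    refine Nat.card_le_card_of_injective (Subtype.map ψ fun b hb => ?_)
      (Subtype.map_injective _ hψ)
    rcases eq_or_ne (R' (ψ b).1) 0 with h0 | h0
    · exact Or.inl h0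
    obtain ⟨P, hm, hi, hdeg, hPF, hPG⟩ := hb
    refine Or.inr ⟨h0, P, hm, hi, hdeg, ?_, ?_⟩
    · have h1 := hRd _ P hPF hPG
      rwa [htr] at h1
    · rw [← eval_fibrePoly u F, htr] at hPF
      exact hPF
  refine hmap.trans ?_
  have hsplit := Fintype.card_subtype_or
    (fun y : Box k r (γ + E0) × Deg k γ => R' y.1 = 0) (fun y => R' y.1 ≠ 0 ∧
      ∃ P : Polynomial k, P.Monic ∧ Irreducible P ∧ N / 2 < P.natDegree ∧ P ∣ R' y.1 ∧
        P ∣ (φ y.1).eval ((a 0).1 + y.2.1 ^ p))
  rw [← Nat.card_eq_fintype_card, ← Nat.card_eq_fintype_card, ← Nat.card_eq_fintype_card]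
    at hsplit
  refine hsplit.trans ?_
  have hzero : Nat.card {y : Box k r (γ + E0) × Deg k γ // R' y.1 = 0} ≤
      r * TR * Fintype.card k ^ ((γ + E0) * r) := by
    rw [Nat.card_congr (Equiv.subtypeProdEquivSigmaSubtype fun x (_ : Deg k γ) => R' x = 0)]
    have h1 := natCard_grid_zeros_mul_le (γ := γ + E0) hR0 g hg
    refine le_trans ?_ (h1.trans (Nat.mul_le_mul_right _ (Nat.mul_le_mul_left _ hRb.1)))
    rw [Nat.card_sigma]
    calc ∑ x : Box k r (γ + E0), Nat.card {_y : Deg k γ // R' x = 0}
        ≤ ∑ x : Box k r (γ + E0), (if R' x = 0 then Fintype.card k ^ (γ + E0) else 0) :=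
          Finset.sum_le_sum fun x _ => by
            split_ifs with hx
            · refine (Finite.card_subtype_le _).trans ((natCard_deg γ).le.trans ?_)
              exact Nat.pow_le_pow_right Fintype.card_pos (Nat.le_add_right _ _)
            · simp [hx]
      _ = _ := by
          rw [← Finset.sum_filter, Finset.sum_const, smul_eq_mul, ← Fintype.card_subtype,
            ← Nat.card_eq_fintype_card]
  have hne : Nat.card {y : Box k r (γ + E0) × Deg k γ // R' y.1 ≠ 0 ∧
      ∃ P : Polynomial k, P.Monic ∧ Irreducible P ∧ N / 2 < P.natDegree ∧ P ∣ R' y.1 ∧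
        P ∣ (φ y.1).eval ((a 0).1 + y.2.1 ^ p)} ≤
      Fintype.card k ^ ((γ + E0) * r) * (d * (C1 * (N + 1))) := by
    refine (natCard_slices_le (fun (x : Box k r (γ + E0)) (z : Deg k γ) => R' x ≠ 0 ∧
      ∃ P : Polynomial k, P.Monic ∧ Irreducible P ∧ N / 2 < P.natDegree ∧ P ∣ R' x ∧
        P ∣ (φ x).eval ((a 0).1 + z.1 ^ p)) (C := d * (C1 * (N + 1))) fun x => ?_).trans
      (Nat.mul_le_mul_right _ natCard_box.le)
    by_cases hx : R' x = 0
    · simp [hx]
    set S := (irrSet k (R' x).natDegree).filter fun P => P ∣ R' x ∧ N / 2 < P.natDegree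
    have hS : S.card ≤ C1 * (N + 1) := by
      refine (card_le_natDegree hx fun P hP => ?_).trans ?_
      · obtain ⟨h1, h2, -⟩ := Finset.mem_filter.mp hP
        exact ⟨(mem_irrSet.mp h1).2.1, (mem_irrSet.mp h1).2.2, h2⟩
      refine (hRb.natDegree_eval_le (M := N + E) _ fun m => ?_).trans ?_
      · refine (Polynomial.natDegree_add_le _ _).trans (max_le
          ((Polynomial.natDegree_sub_le _ _).trans (max_le ((natDegree_deg_le _).trans
            (Nat.le_add_right _ _)) (Polynomial.natDegree_mul_le.trans ?_))) ?_)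
        · exact (Nat.add_le_add (hE m) (natDegree_deg_le _)).trans (Nat.add_comm _ _).le
        · refine natDegree_pow_deg_le ?_ _
          rw [mul_add]
          exact Nat.add_le_add_right hγ _
      · have h1 : h + N + d * E ≤ (h + 1 + d * E) * (N + 1) := by
          nlinarith [Nat.zero_le (h * N), Nat.zero_le (d * E * N)]
        have h2 : N + E ≤ (E + 1) * (N + 1) := by nlinarith [Nat.zero_le (E * N)]
        refine (Nat.add_le_add (Nat.mul_le_mul_left _ h1) (Nat.mul_le_mul_left _ h2)).trans
          (le_of_eq ?_)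
        ring
    have hex : ∀ z : {z : Deg k γ // R' x ≠ 0 ∧ ∃ P : Polynomial k, P.Monic ∧ Irreducible P ∧
        N / 2 < P.natDegree ∧ P ∣ R' x ∧ P ∣ (φ x).eval ((a 0).1 + z.1 ^ p)},
        ∃ P : S, P.1 ∣ (φ x).eval ((a 0).1 + z.1.1 ^ p) := fun z => by
      obtain ⟨P, hm, hi, hdeg, hPR, hd⟩ := z.2.2
      exact ⟨⟨P, Finset.mem_filter.mpr ⟨mem_irrSet.mpr
        ⟨Polynomial.natDegree_le_of_dvd hPR hx, hm, hi⟩, hPR, hdeg⟩⟩, hd⟩
    choose P hP using hex
    refine (Nat.card_le_card_of_injective
      (β := Σ Q : S, {z : Deg k γ // Q.1 ∣ (φ x).eval ((a 0).1 + z.1 ^ p)})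
      (fun z => ⟨P z, ⟨z.1, hP z⟩⟩) fun z y e => Subtype.ext (congrArg
        (fun v : Σ Q : S, {z : Deg k γ // Q.1 ∣ (φ x).eval ((a 0).1 + z.1 ^ p)} =>
          v.2.1) e)).trans ?_
    rw [Nat.card_sigma]
    refine (Finset.sum_le_sum (g := fun _ => d) fun Q _ => ?_).trans ?_
    · have hQ := (mem_irrSet.mp (Finset.mem_filter.mp Q.2).1).2.2
      have hdeg := (Finset.mem_filter.mp Q.2).2.2
      have hγ' : γ ≤ Q.1.natDegree := by
        have hp := (Fact.out : p.Prime).two_le
        have : 2 * γ ≤ N := le_trans (Nat.mul_le_mul_right γ hp) hγ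
        omega
      refine (natCard_roots_le (T := F.totalDegree) (Polynomial.natDegree_map_le.trans
        (natDegree_fibrePoly_le u F)) hQ (fun hd => ?_) (fun z => (a 0).1 + z.1 ^ p)
          fun z y e => ?_).trans hFb.1
      · rw [Polynomial.coeff_map, coeff_fibrePoly_totalDegree, eval_C] at hd
        have := Polynomial.natDegree_le_of_dvd hd hw
        omega
      · haveI : ExpChar (Polynomial k) p := ExpChar.prime Fact.out
        rw [add_sub_add_left_eq_sub, ← sub_pow_expChar] at e
        exact eq_of_dvd_sub hγ' hQ.ne_zero (hQ.prime.dvd_of_dvd_pow e)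
    · rw [Finset.sum_const, Finset.card_univ, Fintype.card_coe, smul_eq_mul, mul_comm]
      exact Nat.mul_le_mul_left _ hS
  refine (Nat.add_le_add hzero hne).trans ?_
  rw [show (γ + E0) * r = E0 * r + γ * r by ring, pow_add]
  have h1 : r * TR ≤ r * TR * (N + 1) := Nat.le_mul_of_pos_right _ (Nat.succ_pos _)
  refine (Nat.add_le_add (Nat.mul_le_mul_right _ h1) le_rfl).trans (le_of_eq ?_)
  ring

/-- **Common divisors of high degree are rare.** -/
theorem exists_natCard_common_high_le (p : ℕ) [Fact p.Prime] [CharP k p]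
    {F : MvPolynomial (Fin (r + 1)) (Polynomial k)} (hF : F ≠ 0) {d h : ℕ} (hFb : Bd F d h) :
    ∃ C M : ℕ, ∀ N γ, M ≤ N → ∀ hγ : p * γ ≤ N,
      ∀ G : Box k (r + 1) N → MvPolynomial (Fin (r + 1)) (Polynomial k),
      (∀ a, Bd (G a) d (h + N)) →
      (∀ x : Box k (r + 1) N × Box k (r + 1) γ, G (boxShift hγ x) = G x.1) →
        Nat.card {a : Box k (r + 1) N // IsRelPrime F (G a) ∧ HighCommon F (G a) N (pt a)} *
          Fintype.card k ^ γ ≤ C * (N + 1) * Fintype.card k ^ (N * (r + 1)) := by
  obtain ⟨C, M, hCM⟩ := exists_natCard_fibre_le p hF hFb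
  refine ⟨C, M, fun N γ hMN hγ G hG hinv => ?_⟩
  have h := natCard_boxShift hγ
    (fun a : Box k (r + 1) N => IsRelPrime F (G a) ∧ HighCommon F (G a) N (pt a))
  have h2 := natCard_slices_le (fun (a : Box k (r + 1) N) (b : Box k (r + 1) γ) =>
    IsRelPrime F (G (boxShift hγ (a, b))) ∧ HighCommon F (G (boxShift hγ (a, b))) N
      (pt (boxShift hγ (a, b)))) (C := C * (N + 1) * Fintype.card k ^ (γ * r)) fun a => by
    by_cases hc : IsRelPrime F (G a)
    · refine le_trans ?_ (hCM N γ hMN hγ (G a) (hG a) hc a)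
      refine Nat.card_le_card_of_injective (Subtype.map id fun b hb => ?_)
        (Subtype.map_injective _ Function.injective_id)
      rw [hinv, pt_boxShift] at hb
      exact hb.2
    · simp [hinv, hc]
  rw [h, natCard_box] at h2
  refine Nat.le_of_mul_le_mul_right (c := Fintype.card k ^ (γ * r)) ?_
    (pow_pos Fintype.card_pos _)
  refine le_trans (le_of_eq ?_) (h2.trans (le_of_eq ?_))
  · rw [show γ * (r + 1) = γ + γ * r by ring, pow_add, mul_assoc]
  · ring

/-- The exceptional tuples are rare. -/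
theorem exists_natCard_not_isRelPrime_le (p : ℕ) [Fact p.Prime] [CharP k p]
    {F : MvPolynomial (Fin n) (Polynomial k)} (hF : Squarefree F) :
    ∃ D : ℕ, ∀ N γ, p * γ ≤ N →
      Nat.card {a : Box k n N // ¬ IsRelPrime F (twist F fun i => (a i).1.derivative)} *
        Fintype.card k ^ γ ≤ D * Fintype.card k ^ (N * n) := by
  obtain ⟨T, hT, hbad⟩ := exists_exceptional hF
  refine ⟨T.card, fun N γ hγ => ?_⟩
  haveI := Fintype.ofFinite (Box k n N)
  have hone : ∀ g ∈ T, Nat.card {a : Box k n N // g ∣ twist g fun i => (a i).1.derivative} *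
      Fintype.card k ^ γ ≤ Fintype.card k ^ (N * n) := fun g hg => by
    obtain ⟨j, hj⟩ := hT g hg
    refine (PlaneBertini.natCard_slices (C := 1)
      ((Equiv.funSplitAt j (Deg k N)).trans (Equiv.prodComm _ _))
      (fun a : Box k n N => g ∣ twist g fun i => (a i).1.derivative) fun o => ?_).trans_eq
      ((one_mul _).trans natCard_box)
    rw [one_mul, natCard_deg]
    rcases isEmpty_or_nonempty {z : Deg k N // g ∣ twist g fun i =>
        ((((Equiv.funSplitAt j (Deg k N)).trans (Equiv.prodComm _ _)).symm (o, z)) i).1.derivative}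
      with he | ⟨⟨z0, hz0⟩⟩
    · exact (congrArg (· * _) Nat.card_of_isEmpty).trans_le (by simp)
    refine le_trans (Nat.mul_le_mul_right _ (Nat.card_le_card_of_injective
      (Subtype.map (q := fun z : Deg k N => z.1.derivative = z0.1.derivative) id fun z hz => ?_)
        (Subtype.map_injective _ Function.injective_id)))
      (natCard_derivative_eq_mul_le hγ _)
    have h1 := hj _ _ (fun i hi => by simp [Equiv.funSplitAt, Equiv.piSplitAt, hi]) hz hz0
    simpa [Equiv.funSplitAt, Equiv.piSplitAt] using h1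
  refine (Nat.mul_le_mul_right _ (le_trans (Nat.card_le_card_of_injective
    (β := {a : Box k n N // ∃ g ∈ T, g ∣ twist g fun i => (a i).1.derivative})
    (Subtype.map id fun a ha => hbad _ ha) (Subtype.map_injective _ Function.injective_id))
    (le_of_eq_of_le (by rw [Nat.card_eq_fintype_card, Fintype.card_subtype])
      (le_trans (Finset.card_le_card
        (t := T.biUnion fun g => Finset.univ.filter fun a : Box k n N =>
        g ∣ twist g fun i => (a i).1.derivative) fun a ha => by simpa using ha)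
          Finset.card_biUnion_le)))).trans ?_
  rw [Finset.sum_mul, ← smul_eq_mul, ← Finset.sum_const]
  refine Finset.sum_le_sum fun g hg => le_of_eq_of_le ?_ (hone g hg)
  rw [Nat.card_eq_fintype_card, Fintype.card_subtype]

end FA.SquarefreeFFMulti
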