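import Fermat.Agent.SquarefreeFFMulti.Medium

/-!
# Poonen's squarefree sieve in several variables over `F_q[t]`

Common prime divisors of high degree are rare for coprime polynomials, and so are square divisors
of high degree: the proportion of squarefree values tends to the product of the local densities.
-/

set_option autoImplicit false
set_option linter.style.openClassical false
set_option linter.style.haveILetI false
set_option linter.unusedSectionVars false

noncomputable section

open scoped Classical Topology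
open Filter

namespace FA.SquarefreeFFMulti

open MvPolynomial FA.SquarefreeFF

variable {k : Type*} [Field k] [Fintype k] {n r : ℕ}

/-- The truncated product. -/
def partialProd (F : MvPolynomial (Fin n) (Polynomial k)) (m : ℕ) : ℝ :=
  ∏ P ∈ irrSet k m, (1 - rootShare F P)

/-- The density: the product over all monic irreducibles. -/
def density (F : MvPolynomial (Fin n) (Polynomial k)) : ℝ := ⨅ m, partialProd F m

theorem partialProd_nonneg (F : MvPolynomial (Fin n) (Polynomial k)) (m : ℕ) :
    0 ≤ partialProd F m :=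
  Finset.prod_nonneg fun P _ => sub_nonneg.mpr (rootShare_le_one F P)

theorem partialProd_antitone (F : MvPolynomial (Fin n) (Polynomial k)) :
    Antitone (partialProd F) :=
  fun m M h => by
    rw [partialProd, partialProd, ← Finset.prod_sdiff (irrSet_mono h)]
    exact mul_le_of_le_one_left (partialProd_nonneg F m)
      (Finset.prod_le_one (fun P _ => sub_nonneg.mpr (rootShare_le_one F P))
        fun P _ => sub_le_self _ (rootShare_nonneg F P))

theorem bddBelow_partialProd (F : MvPolynomial (Fin n) (Polynomial k)) :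
    BddBelow (Set.range (partialProd F)) :=
  ⟨0, by rintro _ ⟨m, rfl⟩; exact partialProd_nonneg F m⟩

/-- **The product converges.** -/
theorem tendsto_partialProd (F : MvPolynomial (Fin n) (Polynomial k)) :
    Tendsto (partialProd F) atTop (𝓝 (density F)) :=
  tendsto_atTop_ciInf (partialProd_antitone F) (bddBelow_partialProd F)

/-- A tail of the sum of `C q^(-2 deg P)`. -/
theorem sum_div_pow_le (C m M : ℕ) :
    ∑ P ∈ (irrSet k M).filter (fun P => m < P.natDegree),
      (C : ℝ) / (Fintype.card k : ℝ) ^ (2 * P.natDegree) ≤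
      C * ((Fintype.card k : ℝ)⁻¹) ^ m := by
  set q : ℝ := (Fintype.card k : ℝ)
  have hq2 : (2 : ℝ) ≤ q := by
    simp only [q]; exact_mod_cast (Fintype.one_lt_card : 1 < Fintype.card k)
  rw [← Finset.sum_fiberwise_of_maps_to (g := Polynomial.natDegree) (t := Finset.Ioc m M)
    fun P hP => Finset.mem_Ioc.mpr
      ⟨(Finset.mem_filter.mp hP).2, (mem_irrSet.mp (Finset.mem_filter.mp hP).1).1⟩]
  refine le_trans (Finset.sum_le_sum (g := fun e => (C : ℝ) * q⁻¹ ^ e) fun e he => ?_) ?_
  · refine le_trans (Finset.sum_le_sum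
      (g := fun _ => (C : ℝ) * (q ^ (2 * e))⁻¹) fun P hP => ?_) ?_
    · rw [← div_eq_mul_inv, (Finset.mem_filter.mp hP).2]
    rw [Finset.sum_const, nsmul_eq_mul]
    have hc : (((((irrSet k M).filter fun P => m < P.natDegree).filter
        fun P => P.natDegree = e).card : ℕ) : ℝ) ≤ q ^ e := by
      simp only [q]
      exact_mod_cast (Finset.card_le_card
        (Finset.filter_subset_filter _ (Finset.filter_subset _ _))).trans
          (card_filter_natDegree_le M e)
    calc _ ≤ q ^ e * ((C : ℝ) * (q ^ (2 * e))⁻¹) :=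
          mul_le_mul_of_nonneg_right hc (by positivity)
      _ = (C : ℝ) * q⁻¹ ^ e := by
          rw [two_mul, pow_add, inv_pow]
          field_simp
  · rw [← Finset.mul_sum]
    exact mul_le_mul_of_nonneg_left (FA.PlaneBertini.sum_Ioc_pow_le (by positivity)
      ((inv_le_comm₀ (by positivity) (by norm_num)).mpr (by linarith)) m M) (Nat.cast_nonneg _)

/-- The tail of the sum of the local shares. -/
theorem sum_rootShare_le {F : MvPolynomial (Fin n) (Polynomial k)} {C r0 : ℕ}
    (h0 : ∀ P : Polynomial k, P.Monic → Irreducible P → r0 < P.natDegree →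
      rootShare F P ≤ (C : ℝ) / (Fintype.card k : ℝ) ^ (2 * P.natDegree))
    {m : ℕ} (hm : r0 ≤ m) (M : ℕ) :
    ∑ P ∈ (irrSet k M).filter (fun P => m < P.natDegree), rootShare F P ≤
      C * ((Fintype.card k : ℝ)⁻¹) ^ m :=
  (Finset.sum_le_sum fun P hP => h0 P (mem_irrSet.mp (Finset.mem_filter.mp hP).1).2.1
    (mem_irrSet.mp (Finset.mem_filter.mp hP).1).2.2
      (lt_of_le_of_lt hm (Finset.mem_filter.mp hP).2)).trans (sum_div_pow_le C m M)

theorem exists_not_sq_dvd_iff (F : MvPolynomial (Fin n) (Polynomial k)) {P : Polynomial k}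
    (hP : P.Monic) : (∃ a, ¬ P ^ 2 ∣ eval a F) ↔ rootShare F P < 1 := by
  haveI := Fintype.ofFinite (Box k n (2 * P.natDegree))
  have hq := q_pos (k := k)
  rw [rootShare, div_lt_one (by positivity), ← Nat.cast_pow, Nat.cast_lt]
  constructor
  · rintro ⟨a, ha⟩
    refine lt_of_le_of_ne (rootCount_le_card F P) fun heq => ha ?_
    have hall : ∀ x : Box k n (2 * P.natDegree), P ^ 2 ∣ eval (pt x) F := fun x => by
      by_contra hx
      rw [rootCount, Nat.card_eq_fintype_card, ← natCard_box, Nat.card_eq_fintype_card] at heq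
      exact (Fintype.card_subtype_lt (p := fun x : Box k n (2 * P.natDegree) =>
        P ^ 2 ∣ eval (pt x) F) hx).ne heq
    have hmem : ∀ i, a i %ₘ P ^ 2 ∈ Polynomial.degreeLT k (2 * P.natDegree) := fun i => by
      have h := Polynomial.degree_modByMonic_lt (a i) (hP.pow 2)
      rw [Polynomial.degree_eq_natDegree (hP.pow 2).ne_zero, Polynomial.natDegree_pow] at h
      exact Polynomial.mem_degreeLT.mpr h
    refine (dvd_eval_iff F (b := fun i => a i %ₘ P ^ 2) fun i => ⟨a i /ₘ P ^ 2, ?_⟩).mpr
      (hall fun i => ⟨_, hmem i⟩)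
    linear_combination (Polynomial.modByMonic_add_div (a i) (P ^ 2)).symm
  · intro hlt
    by_contra! hno
    refine hlt.ne ?_
    rw [rootCount, Nat.card_congr (Equiv.subtypeUnivEquiv fun x : Box k n _ => hno (pt x)),
      natCard_box]

/-- **Positivity**: exactly when no square of an irreducible divides every value. -/
theorem density_pos_iff {F : MvPolynomial (Fin (r + 1)) (Polynomial k)} (hF : Squarefree F) :
    0 < density F ↔
      ∀ P : Polynomial k, P.Monic → Irreducible P → ∃ a, ¬ P ^ 2 ∣ eval a F := by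
  constructor
  · intro hpos P hm hi
    rw [exists_not_sq_dvd_iff F hm]
    refine lt_of_le_of_ne (rootShare_le_one F P) fun h1 => ?_
    refine (hpos.trans_le (ciInf_le (bddBelow_partialProd F) P.natDegree)).ne' ?_
    exact Finset.prod_eq_zero (mem_irrSet.mpr ⟨le_rfl, hm, hi⟩) (by rw [h1, sub_self])
  · intro hall
    have hpos : ∀ m, 0 < partialProd F m := fun m => Finset.prod_pos fun P hP =>
      sub_pos.mpr ((exists_not_sq_dvd_iff F (mem_irrSet.mp hP).2.1).mp
        (hall P (mem_irrSet.mp hP).2.1 (mem_irrSet.mp hP).2.2))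
    obtain ⟨C, r0, h0⟩ := exists_rootShare_le hF
    obtain ⟨m, hr0, hm⟩ : ∃ m, r0 ≤ m ∧
        (C : ℝ) * ((Fintype.card k : ℝ)⁻¹) ^ m < 1 / 2 := by
      have hq : (Fintype.card k : ℝ)⁻¹ < 1 :=
        inv_lt_one_of_one_lt₀ (by exact_mod_cast Fintype.one_lt_card)
      have h := (tendsto_pow_atTop_nhds_zero_of_lt_one (by positivity) hq).const_mul (C : ℝ)
      rw [mul_zero] at h
      exact ((eventually_ge_atTop r0).and (h.eventually (gt_mem_nhds (by norm_num)))).exists
    refine lt_of_lt_of_le (half_pos (hpos m)) (le_ciInf fun M => ?_)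
    rcases le_total M m with hM | hM
    · exact (half_le_self (hpos m).le).trans (partialProd_antitone F hM)
    rw [partialProd, partialProd, ← Finset.prod_sdiff (irrSet_mono hM), div_eq_inv_mul]
    refine mul_le_mul_of_nonneg_right ?_ (partialProd_nonneg F m)
    refine le_trans ?_ (one_sub_sum_le_prod _ _ (fun P _ => rootShare_nonneg F P)
      fun P _ => rootShare_le_one F P)
    have hsub : irrSet k M \ irrSet k m ⊆ (irrSet k M).filter fun P => m < P.natDegree :=
      fun P hP => by
        obtain ⟨h1, h2⟩ := Finset.mem_sdiff.mp hP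
        refine Finset.mem_filter.mpr ⟨h1, not_le.mp fun h => h2 ?_⟩
        exact mem_irrSet.mpr ⟨h, (mem_irrSet.mp h1).2⟩
    have := (Finset.sum_le_sum_of_subset_of_nonneg hsub
      fun P _ _ => rootShare_nonneg F P).trans (sum_rootShare_le h0 hr0 M)
    norm_num
    linarith

/-- A bound `C (N + 1) / q^(N / p)` is negligible. -/
theorem tendsto_high_bound (p C : ℕ) (hp : 0 < p) :
    Tendsto (fun N : ℕ => ((C * (N + 1) : ℕ) : ℝ) / (Fintype.card k : ℝ) ^ (N / p))
      atTop (𝓝 0) := by
  have hq : (1 : ℝ) < Fintype.card k := by exact_mod_cast Fintype.one_lt_card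
  have h := (FA.PlaneBertini.tendsto_high p hp hq).const_mul (C : ℝ)
  rw [mul_zero] at h
  refine squeeze_zero (fun N => by positivity) (fun N => ?_) h
  rw [← mul_div_assoc]
  refine div_le_div₀ (by positivity) ?_ (by positivity)
    (pow_le_pow_right₀ hq.le (Nat.div_le_div_left (by omega) hp))
  exact_mod_cast Nat.mul_le_mul_left C (Nat.le_self_pow (by norm_num : 4 ≠ 0) (N + 1))

/-- **Coprime polynomials take values with a common prime divisor of high degree rarely.** -/
theorem tendsto_share_common_high {F G : MvPolynomial (Fin (r + 1)) (Polynomial k)} (hF : F ≠ 0)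
    (hcop : IsRelPrime F G) :
    Tendsto (fun N => share (r + 1) N fun a => ∃ P : Polynomial k, P.Monic ∧ Irreducible P ∧
      N / 2 < P.natDegree ∧ P ∣ eval a F ∧ P ∣ eval a G) atTop (𝓝 0) := by
  obtain ⟨p, hp⟩ := CharP.exists k
  have hpp : p.Prime := CharP.char_is_prime k p
  haveI : Fact p.Prime := ⟨hpp⟩
  obtain ⟨hF', hFb⟩ := bd_self F
  obtain ⟨hG', hGb⟩ := bd_self G
  obtain ⟨C, M, hCM⟩ := exists_natCard_common_high_le p hF
    (hFb.mono (le_max_left F.totalDegree G.totalDegree) (le_max_left hF' hG'))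
  refine squeeze_zero' (Eventually.of_forall fun N => share_nonneg _)
    ((eventually_ge_atTop M).mono fun N hN => ?_) (tendsto_high_bound (k := k) p C hpp.pos)
  have h := hCM N (N / p) hN (Nat.mul_div_le N p) (fun _ => G)
    (fun _ => hGb.mono (le_max_right _ _) ((le_max_right _ _).trans (Nat.le_add_right _ _)))
    fun _ => rfl
  refine (share_mono (t := fun a => IsRelPrime F G ∧ HighCommon F G N a) fun a ha => ⟨hcop, ha⟩
    ).trans ?_
  exact share_le_of_natCard h

/-- **Poonen's lemma**: coprime polynomials take values with a common prime divisor of degree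
above a large `m` rarely, uniformly in the box. -/
theorem exists_share_common_large_lt {F G : MvPolynomial (Fin (r + 1)) (Polynomial k)} (hF : F ≠ 0)
    (hcop : IsRelPrime F G) {ε : ℝ} (hε : 0 < ε) :
    ∃ m : ℕ, ∀ᶠ N in atTop, share (r + 1) N (fun a => ∃ P : Polynomial k, P.Monic ∧
      Irreducible P ∧ m < P.natDegree ∧ P ∣ eval a F ∧ P ∣ eval a G) < ε := by
  obtain ⟨C, r0, h0⟩ := exists_natCard_common_mod_le hF hcop
  set q : ℝ := (Fintype.card k : ℝ)
  have hq2 : (2 : ℝ) ≤ q := by
    simp only [q]; exact_mod_cast (Fintype.one_lt_card : 1 < Fintype.card k)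
  have hmed := (tendsto_pow_atTop_nhds_zero_of_lt_one (by positivity)
    (inv_lt_one_of_one_lt₀ (by linarith : (1 : ℝ) < q))).const_mul (C : ℝ)
  rw [mul_zero] at hmed
  obtain ⟨m, hm1, hm2⟩ :=
    ((eventually_ge_atTop r0).and (hmed.eventually (gt_mem_nhds (half_pos hε)))).exists
  refine ⟨m, ((tendsto_share_common_high hF hcop).eventually (gt_mem_nhds (half_pos hε))).mono
    fun N hN => lt_of_le_of_lt ((share_mono (t := fun a =>
      (∃ P ∈ (irrSet k (N / 2)).filter (fun P => m < P.natDegree),
        P ∣ eval a F ∧ P ∣ eval a G) ∨ ∃ P : Polynomial k, P.Monic ∧ Irreducible P ∧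
          N / 2 < P.natDegree ∧ P ∣ eval a F ∧ P ∣ eval a G) ?_).trans (share_or_le _ _)) ?_⟩
  · rintro a ⟨P, hP, hi, hdeg, hd⟩
    rcases le_or_gt P.natDegree (N / 2) with h | h
    · exact Or.inl ⟨P, Finset.mem_filter.mpr ⟨mem_irrSet.mpr ⟨h, hP, hi⟩, hdeg⟩, hd⟩
    · exact Or.inr ⟨P, hP, hi, h, hd⟩
  refine lt_of_lt_of_eq (add_lt_add_of_le_of_lt ?_ hN) (add_halves ε)
  refine ((share_exists_le _ _).trans ?_).trans hm2.le
  refine le_trans (Finset.sum_le_sum
    (g := fun P : Polynomial k => (C : ℝ) / q ^ (2 * P.natDegree)) fun P hP => ?_)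
      (sum_div_pow_le C m (N / 2))
  obtain ⟨h1, h2⟩ := Finset.mem_filter.mp hP
  obtain ⟨h3, h4, h5⟩ := mem_irrSet.mp h1
  rw [share_of_mod h4 (h3.trans (Nat.div_le_self _ _)) fun a b h =>
    and_congr (dvd_eval_iff F h) (dvd_eval_iff G h),
    div_le_div_iff₀ (by positivity) (by positivity),
    show 2 * P.natDegree = P.natDegree + P.natDegree by ring,
    show P.natDegree * (r + 1) = P.natDegree * r + P.natDegree by ring, pow_add, pow_add,
    ← mul_assoc, ← mul_assoc]
  refine mul_le_mul_of_nonneg_right ?_ (by positivity)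
  simp only [q]
  exact_mod_cast h0 P h4 h5 (lt_of_le_of_lt hm1 h2)

/-- Square divisors of high degree are rare. -/
theorem exists_share_high_le (p : ℕ) [Fact p.Prime] [CharP k p]
    {F : MvPolynomial (Fin (r + 1)) (Polynomial k)} (hF : Squarefree F) :
    ∃ C M : ℕ, ∀ N, M ≤ N → share (r + 1) N (fun a => ∃ P : Polynomial k,
        P.Monic ∧ Irreducible P ∧ N / 2 < P.natDegree ∧ P ^ 2 ∣ eval a F) ≤
      ((C * (N + 1) : ℕ) : ℝ) / (Fintype.card k : ℝ) ^ (N / p) := by
  obtain ⟨D, hD⟩ := exists_natCard_not_isRelPrime_le p hF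
  obtain ⟨h, hFb⟩ := bd_self F
  obtain ⟨C, M, hCM⟩ := exists_natCard_common_high_le p hF.ne_zero hFb
  refine ⟨D + C, M, fun N hN => ?_⟩
  have h2 := hCM N (N / p) hN (Nat.mul_div_le N p) (fun a => twist F fun i => (a i).1.derivative)
    (fun a => bd_twist hFb _ fun i => (Polynomial.natDegree_derivative_le _).trans
      ((Nat.sub_le _ _).trans (natDegree_deg_le _)))
    (fun x => congrArg (twist F) (_root_.funext fun i => by
      simp [boxShift, shift, derivative_pow_char]))
  have h1 := share_le_of_natCard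
    (s := fun a => ¬ IsRelPrime F (twist F fun i => (a i).derivative))
    (hD N (N / p) (Nat.mul_div_le N p))
  have h2' := share_le_of_natCard (s := fun a => IsRelPrime F (twist F fun i => (a i).derivative) ∧
    HighCommon F (twist F fun i => (a i).derivative) N a) h2
  refine (share_mono (t := fun a => ¬ IsRelPrime F (twist F fun i => (a i).derivative) ∨
    (IsRelPrime F (twist F fun i => (a i).derivative) ∧
      HighCommon F (twist F fun i => (a i).derivative) N a)) fun a ha => ?_).trans
    ((share_or_le _ _).trans ((add_le_add h1 h2').trans ?_))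
  · refine (em _).symm.imp id fun hc => ⟨hc, ?_⟩
    obtain ⟨P, hm, hi, hdeg, hd⟩ := ha
    exact ⟨P, hm, hi, hdeg, (dvd_pow_self P two_ne_zero).trans hd,
      derivative_eval F (pt a) ▸ dvd_derivative_of_sq_dvd hd⟩
  · rw [← add_div]
    refine div_le_div_of_nonneg_right ?_ (by positivity)
    exact_mod_cast (Nat.add_le_add_right (Nat.le_mul_of_pos_right D (Nat.succ_pos N)) _).trans_eq
      (add_mul D C (N + 1)).symm

/-- **Poonen's theorem** in several variables. -/
theorem tendsto_share_squarefree {F : MvPolynomial (Fin (r + 1)) (Polynomial k)}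
    (hF : Squarefree F) :
    Tendsto (fun N => share (r + 1) N fun a => Squarefree (eval a F)) atTop
      (𝓝 (density F)) := by
  obtain ⟨p, hp⟩ := CharP.exists k
  have hpp : p.Prime := CharP.char_is_prime k p
  haveI : Fact p.Prime := ⟨hpp⟩
  set q : ℝ := (Fintype.card k : ℝ)
  have hq : 1 < q := by simp only [q]; exact_mod_cast Fintype.one_lt_card
  obtain ⟨C0, r0, h0⟩ := exists_rootShare_le hF
  obtain ⟨C, M, hCM⟩ := exists_share_high_le p hF
  rw [Metric.tendsto_atTop]
  intro ε hε
  have hmed := (tendsto_pow_atTop_nhds_zero_of_lt_one (by positivity)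
    (inv_lt_one_of_one_lt₀ hq)).const_mul (C0 : ℝ)
  rw [mul_zero] at hmed
  obtain ⟨m, ⟨hm1, hm2⟩, hm3⟩ :=
    (((Metric.tendsto_nhds.mp (tendsto_partialProd F) (ε / 3) (by linarith)).and
      (hmed.eventually (gt_mem_nhds (by linarith : (0 : ℝ) < ε / 3)))).and
        (eventually_ge_atTop r0)).exists
  obtain ⟨N0, hN0⟩ := eventually_atTop.mp
    ((tendsto_high_bound (k := k) p C hpp.pos).eventually
      (gt_mem_nhds (by linarith : (0 : ℝ) < ε / 3)))
  refine ⟨max (∑ P ∈ irrSet k m, 2 * P.natDegree) (max N0 M), fun N hN => ?_⟩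
  obtain ⟨hN1, hN2⟩ := max_le_iff.mp hN
  obtain ⟨hN3, hN4⟩ := max_le_iff.mp hN2
  have hlow : share (r + 1) N (fun a => ∀ P ∈ irrSet k m, ¬ P ^ 2 ∣ eval a F) = partialProd F m :=
    share_forall_not_sq_dvd F (fun P hP => (mem_irrSet.mp hP).2) hN1
  have hup : share (r + 1) N (fun a => Squarefree (eval a F)) ≤ partialProd F m := by
    rw [← hlow]
    exact share_mono fun a ha P hP =>
      (squarefree_iff_forall _).mp ha P (mem_irrSet.mp hP).2.1 (mem_irrSet.mp hP).2.2
  have hdown : partialProd F m ≤ share (r + 1) N (fun a => Squarefree (eval a F)) +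
      ((C0 : ℝ) * q⁻¹ ^ m + ((C * (N + 1) : ℕ) : ℝ) / q ^ (N / p)) := by
    refine le_trans hlow.ge (le_trans (share_mono (t := fun a => Squarefree (eval a F) ∨
      (∃ P ∈ (irrSet k (N / 2)).filter (fun P => m < P.natDegree), P ^ 2 ∣ eval a F) ∨
        ∃ P : Polynomial k, P.Monic ∧ Irreducible P ∧ N / 2 < P.natDegree ∧
          P ^ 2 ∣ eval a F) ?_) ?_)
    · intro a ha
      by_cases hsq : Squarefree (eval (pt a) F)
      · exact Or.inl hsq
      simp only [squarefree_iff_forall, not_forall, not_not] at hsq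
      obtain ⟨P, hm, hi, hd⟩ := hsq
      have hr : m < P.natDegree := by
        by_contra! h
        exact ha P (mem_irrSet.mpr ⟨h, hm, hi⟩) hd
      rcases le_or_gt P.natDegree (N / 2) with h | h
      · exact Or.inr (Or.inl ⟨P, Finset.mem_filter.mpr ⟨mem_irrSet.mpr ⟨h, hm, hi⟩, hr⟩, hd⟩)
      · exact Or.inr (Or.inr ⟨P, hm, hi, h, hd⟩)
    · refine le_trans (share_or_le _ _) (add_le_add le_rfl ((share_or_le _ _).trans
        (add_le_add ?_ (hCM N hN4))))
      refine (share_exists_le _ _).trans (le_of_eq_of_le ?_ (sum_rootShare_le h0 hm3 (N / 2)))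
      refine Finset.sum_congr rfl fun P hP => share_sq_dvd F ?_ ?_
      · exact (mem_irrSet.mp (Finset.mem_filter.mp hP).1).2.1
      · have := (mem_irrSet.mp (Finset.mem_filter.mp hP).1).1
        omega
  have h3 := hN0 N hN3
  rw [Real.dist_eq, abs_sub_lt_iff] at hm1 ⊢
  constructor <;> linarith

end FA.SquarefreeFFMulti
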