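import Fermat.Agent.SquarefreeFFMulti.High
import Fermat.Agent.SquarefreeFFMulti.Local

/-!
# The zeros modulo the square of a large irreducible

A squarefree `F` in `r + 1` variables has `O(Q^r)` zeros modulo a large `P` with `Q = q^(deg P)`,
and only `O(Q^(r-1))` of them lift to singular zeros modulo `P²`; so it has `O(Q^(2r))` of these.
-/

set_option autoImplicit false
set_option linter.style.openClassical false
set_option linter.style.haveILetI false
set_option linter.unusedSectionVars false

noncomputable section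

open scoped Classical

namespace FA.SquarefreeFFMulti

open MvPolynomial FA.SquarefreeFF

variable {k : Type*} [Field k] [Fintype k] {n r : ℕ}

/-- The transversal coordinates modulo `P`. -/
def red {P : Polynomial k} (hP : P.Monic) (u : Fin r → Polynomial k)
    (a : Box k (r + 1) P.natDegree) : Box k r P.natDegree := fun m =>
  ⟨transv u (pt a) m %ₘ P, by
    rw [Polynomial.mem_degreeLT, ← Polynomial.degree_eq_natDegree hP.ne_zero]
    exact Polynomial.degree_modByMonic_lt _ hP⟩

/-- **Zeros modulo `P`**, over given transversal coordinates. -/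
theorem natCard_zeros_mod_le {F : MvPolynomial (Fin (r + 1)) (Polynomial k)}
    {u : Fin r → Polynomial k} (hu : lead u F ≠ 0) {P : Polynomial k} (hP : P.Monic)
    (hPi : Irreducible P) (hdeg : (lead u F).natDegree < P.natDegree)
    (Y : Box k r P.natDegree → Prop) :
    Nat.card {a : Box k (r + 1) P.natDegree // P ∣ eval (pt a) F ∧ Y (red hP u a)} ≤
      F.totalDegree * Nat.card {y : Box k r P.natDegree // Y y} := by
  haveI := Fintype.ofFinite (Box k r P.natDegree)
  let φ : Box k r P.natDegree → Polynomial (Polynomial k) := fun y =>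
    (fibrePoly u F).map (eval (pt y))
  have hred : ∀ (a : Box k (r + 1) P.natDegree) m,
      P ∣ transv u (pt a) m - (red hP u a m).1 := fun a m =>
    ⟨transv u (pt a) m /ₘ P, by
      show transv u (pt a) m - transv u (pt a) m %ₘ P = _
      linear_combination (Polynomial.modByMonic_add_div (transv u (pt a) m) P).symm⟩
  have hiff : ∀ a : Box k (r + 1) P.natDegree, P ∣ eval (pt a) F →
      P ∣ (φ (red hP u a)).eval (a 0).1 := fun a ha => by
    set x : Fin (r + 1) → Polynomial k :=
      Fin.cons (a 0).1 fun m => (red hP u a m).1 + u m * (a 0).1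
    have h1 : ∀ i, P ∣ pt a i - x i := by
      refine Fin.cases (by simp [x, pt]) fun m => ?_
      obtain ⟨c, hc⟩ := hred a m
      exact ⟨c, by rw [← hc]; simp [x, pt, transv]; ring⟩
    have h2 := (dvd_eval_iff F h1).mp ha
    have h3 : transv u x = pt (red hP u a) := _root_.funext fun m => by simp [transv, x, pt]
    rw [← eval_fibrePoly u F, h3, show x 0 = (a 0).1 from rfl] at h2
    exact h2
  refine le_trans (Nat.card_le_card_of_injective (β := {v : {y : Box k r P.natDegree // Y y} ×
      Deg k P.natDegree // P ∣ (φ v.1.1).eval v.2.1})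
    (fun a => ⟨(⟨red hP u a.1, a.2.2⟩, a.1 0), hiff a.1 a.2.1⟩) fun a b e => ?_) ?_
  · obtain ⟨e1, e2⟩ := Prod.ext_iff.mp (congrArg Subtype.val e)
    refine Subtype.ext (_root_.funext (Fin.cases e2 fun m => ?_))
    have h3 : (red hP u a.1 m).1 = (red hP u b.1 m).1 :=
      congrArg (fun z => (z m).1) (congrArg Subtype.val e1)
    refine eq_of_dvd_sub le_rfl hP.ne_zero ?_
    have h4 := dvd_sub (hred a.1 m) (hred b.1 m)
    have h5 : (a.1 0).1 = (b.1 0).1 := congrArg Subtype.val e2
    rw [h3, sub_sub_sub_cancel_right, transv, transv] at h4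
    simpa [pt, h5] using h4
  · rw [mul_comm F.totalDegree]
    refine natCard_slices_le (fun (y : {y : Box k r P.natDegree // Y y}) (z : Deg k P.natDegree) =>
      P ∣ (φ y.1).eval z.1) fun y => ?_
    refine natCard_roots_le (Polynomial.natDegree_map_le.trans (natDegree_fibrePoly_le u F)) hPi
      (fun hd => ?_) (fun z => z.1) fun b c => eq_of_dvd_sub le_rfl hP.ne_zero
    rw [Polynomial.coeff_map, coeff_fibrePoly_totalDegree, eval_C] at hd
    have := Polynomial.natDegree_le_of_dvd hd hu
    omega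

/-- Some twist is coprime to `F`. -/
theorem exists_isRelPrime_twist {F : MvPolynomial (Fin n) (Polynomial k)} (hF : Squarefree F) :
    ∃ s : Fin n → Polynomial k, IsRelPrime F (twist F s) := by
  obtain ⟨p, hp⟩ := CharP.exists k
  haveI : Fact p.Prime := ⟨CharP.char_is_prime k p⟩
  obtain ⟨D, hD⟩ := exists_natCard_not_isRelPrime_le p hF
  by_contra! hno
  have h := hD (p * (D + 1)) (D + 1) le_rfl
  rw [Nat.card_congr (Equiv.subtypeUnivEquiv fun a : Box k n (p * (D + 1)) => hno _), natCard_box,
    mul_comm D] at h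
  have h1 := Nat.le_of_mul_le_mul_left h (pow_pos Fintype.card_pos _)
  have h2 := Nat.lt_pow_self (n := D + 1) (Fintype.one_lt_card : 1 < Fintype.card k)
  omega

/-- **Common zeros modulo `P`** of coprime polynomials. -/
theorem exists_natCard_common_mod_le {F G : MvPolynomial (Fin (r + 1)) (Polynomial k)}
    (hF : F ≠ 0) (hcop : IsRelPrime F G) :
    ∃ C r0 : ℕ, ∀ P : Polynomial k, P.Monic → Irreducible P → r0 < P.natDegree →
      Nat.card {a : Box k (r + 1) P.natDegree // P ∣ eval (pt a) F ∧ P ∣ eval (pt a) G} *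
        Fintype.card k ^ P.natDegree ≤ C * Fintype.card k ^ (P.natDegree * r) := by
  obtain ⟨p, hp⟩ := CharP.exists k
  haveI : Fact p.Prime := ⟨CharP.char_is_prime k p⟩
  obtain ⟨w, hw⟩ := exists_direction p hF
  obtain ⟨hF', hFb⟩ := bd_self F
  obtain ⟨hG', hGb⟩ := bd_self G
  set u := fun m => w m ^ p
  obtain ⟨R, hR0, -, hRd⟩ := exists_eliminant hw
    (E := Finset.univ.sup fun m => (u m).natDegree)
    (fun m => Finset.le_sup (f := fun m => (u m).natDegree) (Finset.mem_univ m))
    (hFb.mono (le_max_left _ G.totalDegree) (le_max_left hF' hG'))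
    (hGb.mono (le_max_right _ _) (le_max_right _ _)) hcop
  obtain ⟨v, hv⟩ := exists_coeff_ne_zero hR0
  refine ⟨F.totalDegree * (r * R.totalDegree),
    max (lead u F).natDegree (R.coeff v).natDegree, fun P hP hPi hdeg => ?_⟩
  obtain ⟨hdeg1, hdeg2⟩ := max_lt_iff.mp hdeg
  haveI := Fact.mk hPi
  set e := P.natDegree
  set Q := Fintype.card k ^ e
  haveI := Fintype.ofFinite (Deg k e)
  have hR : Nat.card {y : Box k r e // P ∣ eval (pt y) R} * Q ≤
      r * R.totalDegree * Fintype.card k ^ (e * r) := by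
    have hne : R.map (AdjoinRoot.mk P) ≠ 0 := fun h0 => by
      have h1 := congrArg (coeff v) h0
      rw [coeff_map, coeff_zero, AdjoinRoot.mk_eq_zero] at h1
      have := Polynomial.natDegree_le_of_dvd h1 hv
      omega
    refine le_trans (le_of_eq ?_) ((natCard_grid_zeros_mul_le hne
      (fun _ z => AdjoinRoot.mk P z.1) fun _ b c hbc => eq_of_dvd_sub le_rfl hP.ne_zero
        (AdjoinRoot.mk_eq_mk.mp hbc)).trans
      (Nat.mul_le_mul_right _ (Nat.mul_le_mul_left _ (LangWeilAll.totalDegree_map_le _ _))))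
    refine congrArg (· * Q) (Nat.card_congr (Equiv.subtypeEquivRight fun y => ?_))
    rw [show (fun m => AdjoinRoot.mk P (y m).1) = AdjoinRoot.mk P ∘ pt y from rfl, ← map_eval,
      AdjoinRoot.mk_eq_zero]
  have hred : ∀ a : Box k (r + 1) e, P ∣ eval (pt a) F → P ∣ eval (pt a) G →
      P ∣ eval (pt (red hP u a)) R := fun a h1 h2 => by
    refine (dvd_eval_iff R fun m => ?_).mp (hRd _ P h1 h2)
    exact ⟨transv u (pt a) m /ₘ P, by
      show transv u (pt a) m - transv u (pt a) m %ₘ P = _
      linear_combination (Polynomial.modByMonic_add_div (transv u (pt a) m) P).symm⟩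
  refine le_trans (Nat.mul_le_mul_right _ ((Nat.card_le_card_of_injective
    (Subtype.map (q := fun a => P ∣ eval (pt a) F ∧ P ∣ eval (pt (red hP u a)) R) id
      fun a ha => ⟨ha.1, hred a ha.1 ha.2⟩) (Subtype.map_injective _ Function.injective_id)).trans
    (natCard_zeros_mod_le hw hP hPi hdeg1 fun y => P ∣ eval (pt y) R))) ?_
  rw [mul_assoc, mul_assoc F.totalDegree]
  exact Nat.mul_le_mul_left _ hR

/-- **The local share is `O(q^(-2 deg P))`.** -/
theorem exists_rootShare_le {F : MvPolynomial (Fin (r + 1)) (Polynomial k)} (hF : Squarefree F) :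
    ∃ C r0 : ℕ, ∀ P : Polynomial k, P.Monic → Irreducible P → r0 < P.natDegree →
      rootShare F P ≤ (C : ℝ) / (Fintype.card k : ℝ) ^ (2 * P.natDegree) := by
  obtain ⟨p, hp⟩ := CharP.exists k
  haveI : Fact p.Prime := ⟨CharP.char_is_prime k p⟩
  obtain ⟨w, hw⟩ := exists_direction p hF.ne_zero
  obtain ⟨s, hs⟩ := exists_isRelPrime_twist hF
  obtain ⟨C, r1, hC⟩ := exists_natCard_common_mod_le hF.ne_zero hs
  set u := fun m => w m ^ p
  refine ⟨F.totalDegree + C, max (lead u F).natDegree r1, fun P hP hPi hdeg => ?_⟩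
  obtain ⟨hdeg1, hdeg2⟩ := max_lt_iff.mp hdeg
  set e := P.natDegree
  set Q := Fintype.card k ^ e
  obtain ⟨E0, hE0⟩ := exists_modEquiv hP (N := 2 * e) (i := e) (two_mul _)
  let E : Box k (r + 1) (2 * e) ≃ Box k (r + 1) e × Box k (r + 1) e :=
    (Equiv.piCongrRight fun _ => E0).trans
      (Equiv.arrowProdEquivProdArrow (Fin (r + 1)) (fun _ => Deg k e) fun _ => Deg k e)
  have hEq : ∀ a, pt a = fun i => pt (E a).1 i + P * pt (E a).2 i := fun a =>
    _root_.funext fun i => hE0 (a i)
  let S := fun (x : Box k (r + 1) e) (c : Box k (r + 1) e) =>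
    P ^ 2 ∣ eval (fun i => pt x i + P * pt c i) F
  have hF0 : ∀ x c, S x c → P ∣ eval (pt x) F := fun x c hc => by
    refine (dvd_eval_iff F fun i => ?_).mpr ((dvd_pow_self P two_ne_zero).trans hc)
    exact ⟨-pt c i, by ring⟩
  have hsing : ∀ x c, S x c → (∀ i, P ∣ eval (pt x) (pderiv i F)) →
      P ∣ eval (pt x) (twist F s) := fun x c hc hd => by
    set z : Fin (r + 1) → Polynomial k := fun i => pt x i + P * pt c i
    have hx : ∀ i, P ∣ z i - pt x i := fun i => ⟨pt c i, by simp [z]⟩
    have h1 : P ∣ (eval z F).derivative := dvd_derivative_of_sq_dvd hc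
    rw [derivative_eval, twist, map_add, map_sum] at h1
    have h2 : P ∣ eval z (Dt F) := by
      refine (dvd_add_left (Finset.dvd_sum fun i _ => ?_)).mp h1
      rw [map_mul]
      exact dvd_mul_of_dvd_right ((dvd_eval_iff _ hx).mpr (hd i)) _
    rw [twist, map_add, map_sum]
    refine dvd_add ((dvd_eval_iff _ hx).mp h2) (Finset.dvd_sum fun i _ => ?_)
    rw [map_mul]
    exact dvd_mul_of_dvd_right (hd i) _
  have hfib : ∀ x, ¬ (∀ i, P ∣ eval (pt x) (pderiv i F)) →
      Nat.card {c // S x c} ≤ Fintype.card k ^ (e * r) := fun x hx => by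
    obtain ⟨j, hj⟩ := not_forall.mp hx
    refine le_of_le_of_eq (Nat.card_le_card_of_injective
      (fun c : {c // S x c} => fun m => c.1 (j.succAbove m)) fun c c' hcc => ?_) natCard_box
    refine Subtype.ext (_root_.funext (Fin.succAboveCases j ?_ fun m => congrFun hcc m))
    obtain ⟨z, hz⟩ := exists_eval_add F (pt x) (pt c.1) P
    obtain ⟨z', hz'⟩ := exists_eval_add F (pt x) (pt c'.1) P
    have h1 := dvd_sub c.2 c'.2
    have h2 : ∑ i, pt c.1 i * eval (pt x) (pderiv i F) -
        ∑ i, pt c'.1 i * eval (pt x) (pderiv i F) =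
          (pt c.1 j - pt c'.1 j) * eval (pt x) (pderiv j F) := by
      rw [← Finset.sum_sub_distrib, Finset.sum_eq_single j]
      · ring
      · intro i _ hi
        obtain ⟨m, rfl⟩ := Fin.exists_succAbove_eq hi
        rw [show pt c.1 (j.succAbove m) = pt c'.1 (j.succAbove m) from
          congrArg Subtype.val (congrFun hcc m), sub_self]
      · simp
    rw [hz, hz', show eval (pt x) F + P * ∑ i, pt c.1 i * eval (pt x) (pderiv i F) + P ^ 2 * z -
        (eval (pt x) F + P * ∑ i, pt c'.1 i * eval (pt x) (pderiv i F) + P ^ 2 * z') =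
      P * ((pt c.1 j - pt c'.1 j) * eval (pt x) (pderiv j F)) + P ^ 2 * (z - z') by
        rw [← h2]; ring, dvd_add_left (dvd_mul_right _ _), pow_two,
      mul_dvd_mul_iff_left hPi.ne_zero] at h1
    exact eq_of_dvd_sub le_rfl hP.ne_zero ((hPi.prime.dvd_mul.mp h1).resolve_right hj)
  have hcount : rootCount F P ≤ (F.totalDegree + C) *
      Fintype.card k ^ (2 * e * r) := by
    have e1 : {a : Box k (r + 1) (2 * e) // P ^ 2 ∣ eval (pt a) F} ≃
        {v : Box k (r + 1) e × Box k (r + 1) e // S v.1 v.2} :=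
      E.subtypeEquiv fun a => by rw [hEq a]
    rw [rootCount, Nat.card_congr e1]
    let ns := fun v : Box k (r + 1) e × Box k (r + 1) e =>
      S v.1 v.2 ∧ ¬ ∀ i, P ∣ eval (pt v.1) (pderiv i F)
    let si := fun v : Box k (r + 1) e × Box k (r + 1) e =>
      S v.1 v.2 ∧ ∀ i, P ∣ eval (pt v.1) (pderiv i F)
    have hsplit : Nat.card {v : Box k (r + 1) e × Box k (r + 1) e // S v.1 v.2} ≤
        Nat.card {v // ns v} + Nat.card {v // si v} := by
      haveI := Fintype.ofFinite (Box k (r + 1) e × Box k (r + 1) e)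
      rw [Nat.card_eq_fintype_card, Nat.card_eq_fintype_card, Nat.card_eq_fintype_card]
      exact le_trans (Fintype.card_subtype_mono _ _ fun v hv =>
        (em (∀ i, P ∣ eval (pt v.1) (pderiv i F))).symm.imp (⟨hv, ·⟩) (⟨hv, ·⟩))
        (Fintype.card_subtype_or _ _)
    have hns : Nat.card {v // ns v} ≤
        Nat.card {x : Box k (r + 1) e // P ∣ eval (pt x) F} * Fintype.card k ^ (e * r) := by
      refine le_trans (Nat.card_le_card_of_injective (β := {v : {x : Box k (r + 1) e //
          P ∣ eval (pt x) F} × Box k (r + 1) e // S v.1.1 v.2 ∧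
            ¬ ∀ i, P ∣ eval (pt v.1.1) (pderiv i F)})
        (fun v => ⟨(⟨v.1.1, hF0 _ _ v.2.1⟩, v.1.2), v.2⟩) fun v w hvw => ?_) ?_
      · simp only [Subtype.mk.injEq, Prod.mk.injEq] at hvw
        exact Subtype.ext (Prod.ext hvw.1 hvw.2)
      refine natCard_slices_le (fun (x : {x : Box k (r + 1) e // P ∣ eval (pt x) F})
        (c : Box k (r + 1) e) => S x.1 c ∧ ¬ ∀ i, P ∣ eval (pt x.1) (pderiv i F)) fun x => ?_
      by_cases hx : ∀ i, P ∣ eval (pt x.1) (pderiv i F)
      · simp [hx]
      · exact le_trans (Nat.card_le_card_of_injective (Subtype.map id fun c hc => hc.1)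
          (Subtype.map_injective _ Function.injective_id)) (hfib x.1 hx)
    have hsi : Nat.card {v // si v} ≤
        Nat.card {x : Box k (r + 1) e // P ∣ eval (pt x) F ∧ P ∣ eval (pt x) (twist F s)} *
          Fintype.card k ^ (e * (r + 1)) := by
      rw [← natCard_box, ← Nat.card_prod]
      refine Nat.card_le_card_of_injective
        (fun v => (⟨v.1.1, hF0 _ _ v.2.1, hsing _ _ v.2.1 v.2.2⟩, v.1.2))
        fun v w hvw => ?_
      simp only [Subtype.mk.injEq, Prod.mk.injEq] at hvw
      exact Subtype.ext (Prod.ext hvw.1 hvw.2)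
    have hZ1 : Nat.card {x : Box k (r + 1) e // P ∣ eval (pt x) F} ≤
        F.totalDegree * Fintype.card k ^ (e * r) := by
      refine le_trans (le_of_eq (Nat.card_congr (Equiv.subtypeEquivRight fun x =>
        (and_iff_left trivial).symm))) ((natCard_zeros_mod_le hw hP hPi hdeg1 fun _ => True).trans
          (Nat.mul_le_mul_left _ ((Finite.card_subtype_le _).trans natCard_box.le)))
    refine hsplit.trans ((Nat.add_le_add (hns.trans (Nat.mul_le_mul_right _ hZ1)) hsi).trans ?_)
    have hQ : Fintype.card k ^ (e * (r + 1)) = Q * Fintype.card k ^ (e * r) := by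
      rw [← pow_add]; ring_nf
    rw [hQ, show 2 * e * r = e * r + e * r by ring, pow_add, ← mul_assoc _ Q]
    refine (Nat.add_le_add le_rfl (Nat.mul_le_mul_right _ (hC P hP hPi hdeg2))).trans (le_of_eq ?_)
    ring
  have hq := q_pos (k := k)
  rw [rootShare, div_le_div_iff₀ (by positivity) (by positivity),
    show 2 * e * (r + 1) = 2 * e * r + 2 * e by ring, pow_add, ← mul_assoc]
  exact mul_le_mul_of_nonneg_right (by exact_mod_cast hcount) (by positivity)

end FA.SquarefreeFFMulti
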