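import Fermat.Agent.SquarefreeFFMulti.Derivative
import Fermat.Agent.LangWeilAll.Normalise
import Mathlib.Algebra.MvPolynomial.Funext
import Mathlib.RingTheory.Localization.Integral

/-!
# Eliminating one variable

After the shear along a direction `(1, u)` off the top form, `F` has a top coefficient in `t` alone.
With a coprime `G` it has a resultant, nonzero, with both bounds linear in the height of `G`.
-/

set_option autoImplicit false
set_option linter.style.openClassical false
set_option linter.style.haveILetI false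

noncomputable section

open scoped Classical

namespace FA.SquarefreeFFMulti

open MvPolynomial

variable {k : Type*} [Field k] {r : ℕ}

/-- The top form along the direction `(1, u)`. -/
def lead (u : Fin r → Polynomial k) (F : MvPolynomial (Fin (r + 1)) (Polynomial k)) :
    Polynomial k :=
  eval (Fin.cons 1 u) (homogeneousComponent F.totalDegree F)

/-- The sheared polynomial, in the first variable. -/
def fibrePoly (u : Fin r → Polynomial k) (F : MvPolynomial (Fin (r + 1)) (Polynomial k)) :
    Polynomial (MvPolynomial (Fin r) (Polynomial k)) :=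
  finSuccEquiv (Polynomial k) r
    (LangWeilAll.shear (Fin.cons 1 u) 0 1 (by simp) 0 F)

/-- The coordinates transversal to the direction. -/
def transv (u : Fin r → Polynomial k) (x : Fin (r + 1) → Polynomial k) : Fin r → Polynomial k :=
  fun m => x m.succ - u m * x 0

theorem eval_fibrePoly (u : Fin r → Polynomial k)
    (F : MvPolynomial (Fin (r + 1)) (Polynomial k)) (x : Fin (r + 1) → Polynomial k) :
    ((fibrePoly u F).map (eval (transv u x))).eval (x 0) = eval x F := by
  rw [fibrePoly, LangWeilAll.map_eval_shear, add_zero]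
  induction F using MvPolynomial.induction_on with
  | C a => simp
  | add f g hf hg => simp only [map_add, Polynomial.eval_add, hf, hg]
  | mul_X f i hf =>
    simp only [map_mul, Polynomial.eval_mul, hf, aeval_X, eval_X]
    refine congrArg _ ?_
    refine Fin.cases ?_ (fun m => ?_) i <;> simp [transv]

theorem bd_fibrePoly {u : Fin r → Polynomial k} {E : ℕ} (hu : ∀ m, (u m).natDegree ≤ E)
    {F : MvPolynomial (Fin (r + 1)) (Polynomial k)} {d h : ℕ} (hF : Bd F d h) (i : ℕ) :
    Bd ((fibrePoly u F).coeff i) d (h + d * E) := by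
  have h1 : Bd (LangWeilAll.shear (Fin.cons 1 u) 0 1 (by simp) 0 F) d (h + d * E) := by
    rw [LangWeilAll.shear_apply]
    refine hF.aeval _ fun j => (((bd_C _).mul (bd_X 0)).mono le_rfl ?_).add ?_
    · refine Fin.cases ?_ (fun m => ?_) j
      · simp
      · simpa using hu m
    · refine Fin.cases ?_ (fun m => ?_) j
      · simpa using bd_zero 1 E
      · simpa [Fin.insertNth_zero] using
          (bd_X (k := k) m.succ).mono le_rfl (Nat.zero_le E)
  exact ⟨(LangWeilAll.totalDegree_coeff_finSuccEquiv_le _ _).trans h1.1, fun s => by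
    rw [fibrePoly, finSuccEquiv_coeff_coeff]; exact h1.2 _⟩

theorem coeff_aeval_C_mul_X (v : Fin (r + 1) → Polynomial k)
    (F : MvPolynomial (Fin (r + 1)) (Polynomial k)) (e : ℕ) :
    (aeval (fun i => Polynomial.C (v i) * Polynomial.X) F).coeff e =
      eval v (homogeneousComponent e F) := by
  rw [homogeneousComponent_apply, map_sum]
  conv_lhs => rw [F.as_sum, map_sum, Polynomial.finsetSum_coeff]
  rw [Finset.sum_filter]
  refine Finset.sum_congr rfl fun s _ => ?_
  rw [aeval_monomial, eval_monomial, Finsupp.prod, Finsupp.prod, ← Polynomial.C_eq_algebraMap,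
    Finsupp.degree_apply]
  simp only [mul_pow, Finset.prod_mul_distrib, Finset.prod_pow_eq_pow_sum, ← map_pow, ← map_prod]
  rw [← mul_assoc, ← map_mul, Polynomial.coeff_C_mul_X_pow]
  rcases eq_or_ne (∑ a ∈ s.support, s a) e with h | h
  · rw [if_pos h, if_pos h.symm]
  · rw [if_neg h, if_neg h.symm]

theorem natDegree_fibrePoly_le (u : Fin r → Polynomial k)
    (F : MvPolynomial (Fin (r + 1)) (Polynomial k)) :
    (fibrePoly u F).natDegree ≤ F.totalDegree := by
  refine Polynomial.natDegree_le_iff_coeff_eq_zero.2 fun i hi => by_contra fun h0 => ?_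
  have := (totalDegree_coeff_finSuccEquiv_add_le _ i h0).trans
    (LangWeilAll.totalDegree_shear_le (Fin.cons 1 u) 0 1 (by simp) 0 F)
  omega

theorem coeff_fibrePoly_totalDegree (u : Fin r → Polynomial k)
    (F : MvPolynomial (Fin (r + 1)) (Polynomial k)) :
    (fibrePoly u F).coeff F.totalDegree = C (lead u F) := by
  set G := fibrePoly u F
  set e := F.totalDegree
  have hconst : G.coeff e = C ((G.coeff e).coeff 0) := by
    refine totalDegree_eq_zero_iff_eq_C.1 ?_
    rcases eq_or_ne (G.coeff e) 0 with h | h
    · rw [h, totalDegree_zero]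
    · have hle : (G.coeff e).totalDegree + e ≤ e :=
        (totalDegree_coeff_finSuccEquiv_add_le _ e h).trans
        (LangWeilAll.totalDegree_shear_le (Fin.cons 1 u) 0 1 (by simp) 0 F)
      omega
  have h1 := congrArg (fun Q => Polynomial.coeff Q e)
    (LangWeilAll.map_eval_shear (Fin.cons 1 u : Fin (r + 1) → Polynomial k) 0 1 (by simp) 0 0 F)
  rw [← fibrePoly, Polynomial.coeff_map, show (fibrePoly u F).coeff e = G.coeff e from rfl, hconst,
    eval_C, add_zero] at h1
  rw [hconst, h1, lead, ← coeff_aeval_C_mul_X]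
  refine congrArg (fun g : Fin (r + 1) → Polynomial (Polynomial k) =>
    (C ((aeval g F).coeff e) : MvPolynomial (Fin r) (Polynomial k))) (_root_.funext fun i => ?_)
  refine Fin.cases ?_ (fun m => ?_) i <;> simp

/-- A direction with `p`-th power slopes off the top form. -/
theorem exists_direction (p : ℕ) [Fact p.Prime] [CharP k p]
    {F : MvPolynomial (Fin (r + 1)) (Polynomial k)} (hF : F ≠ 0) :
    ∃ w : Fin r → Polynomial k, lead (fun m => w m ^ p) F ≠ 0 := by
  set h := homogeneousComponent F.totalDegree F with hh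
  obtain ⟨s0, hs0⟩ : ∃ s, h.coeff s ≠ 0 := by
    obtain ⟨s, hs, he⟩ :=
      Finset.exists_mem_eq_sup F.support (support_nonempty.2 hF) fun s => s.sum fun _ n => n
    refine ⟨s, ?_⟩
    rw [hh, coeff_homogeneousComponent, Finsupp.degree_apply, if_pos]
    · exact mem_support_iff.1 hs
    · exact he.symm
  have hdeg : ∀ s, h.coeff s ≠ 0 → s.degree = F.totalDegree := fun s hs => by
    rw [hh, coeff_homogeneousComponent] at hs
    exact (ite_ne_right_iff.mp hs).1
  set g : MvPolynomial (Fin r) (Polynomial k) := aeval (Fin.cons 1 X) h with hg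
  have hg0 : g ≠ 0 := fun e => hs0 <| by
    have hmon : ∀ s : Fin (r + 1) →₀ ℕ, ∀ c : Polynomial k,
        aeval (Fin.cons 1 X : Fin (r + 1) → MvPolynomial (Fin r) (Polynomial k)) (monomial s c) =
          monomial s.tail c := fun s c => by
      rw [aeval_monomial, Finsupp.prod_fintype _ _ fun _ => pow_zero _, Fin.prod_univ_succ,
        algebraMap_eq, monomial_eq, Finsupp.prod_fintype _ _ fun _ => pow_zero _]
      simp [Finsupp.tail_apply]
    have h1 := congrArg (coeff s0.tail) e
    rw [hg, h.as_sum, map_sum, coeff_sum, coeff_zero,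
      Finset.sum_eq_single_of_mem s0 (mem_support_iff.2 hs0), hmon, coeff_monomial,
      if_pos rfl] at h1
    · exact h1
    intro s hs hne
    rw [hmon, coeff_monomial, if_neg]
    intro ht
    refine hne ?_
    have hd : ∀ u : Fin (r + 1) →₀ ℕ, u.degree = u 0 + ∑ m, u.tail m := fun u => by
      rw [Finsupp.degree_eq_sum, Fin.sum_univ_succ]; rfl
    have h0 : s 0 = s0 0 := by
      have h2 := hdeg s (mem_support_iff.1 hs)
      rw [← hdeg s0 hs0, hd, hd, ht] at h2
      omega
    rw [← Finsupp.cons_tail s, ← Finsupp.cons_tail s0, h0, ht]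
  by_contra! hno
  haveI : ExpChar (Polynomial k) p := ExpChar.prime Fact.out
  refine hg0 (funext_set (fun _ => Set.range fun x : Polynomial k => x ^ p)
    (fun _ => Set.infinite_range_of_injective (frobenius_inj (Polynomial k) p)) fun x hx => ?_)
  choose w hw using fun m => hx m (Set.mem_univ m)
  rw [map_zero, ← hno w, lead, ← hh, hg, LangWeilAll.eval_aeval_apply]
  refine congrArg (fun v => eval v h) (funext (Fin.cases ?_ fun m => ?_))
  · simp
  · simpa using (hw m).symm

/-- Coprime polynomials over a UFD have a nonzero resultant. -/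
theorem resultant_ne_zero_of_isRelPrime {B : Type*} [CommRing B] [IsDomain B]
    [UniqueFactorizationMonoid B] {P Q : Polynomial B} (hP : P.natDegree ≠ 0)
    (hcop : IsRelPrime P Q) : Polynomial.resultant P Q ≠ 0 := by
  set K := FractionRing B
  have hinj : Function.Injective (algebraMap B K) := IsFractionRing.injective B K
  have hP' : P.map (algebraMap B K) ≠ 0 := (Polynomial.map_ne_zero_iff hinj).2 fun e => hP (by
    rw [e, Polynomial.natDegree_zero])
  suffices hK : IsCoprime (P.map (algebraMap B K)) (Q.map (algebraMap B K)) by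
    intro e
    refine Polynomial.resultant_ne_zero _ _ hK ?_
    rw [Polynomial.resultant_map_map, Polynomial.natDegree_map_eq_of_injective hinj,
      Polynomial.natDegree_map_eq_of_injective hinj, e, map_zero]
  rw [← isRelPrime_iff_isCoprime]
  intro g hgP hgQ
  by_contra hg
  obtain ⟨P1, hP1⟩ := hgP
  obtain ⟨Q1, hQ1⟩ := hgQ
  have hP10 : P1 ≠ 0 := right_ne_zero_of_mul (hP1 ▸ hP')
  have hlt : P1.natDegree < P.natDegree := by
    rw [← Polynomial.natDegree_map_eq_of_injective hinj P, hP1,
      Polynomial.natDegree_mul (left_ne_zero_of_mul (hP1 ▸ hP')) hP10]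
    refine Nat.lt_add_of_pos_left (Nat.pos_of_ne_zero fun h0 => hg ?_)
    exact Polynomial.isUnit_iff_degree_eq_zero.2 (by
      rw [Polynomial.degree_eq_natDegree (left_ne_zero_of_mul (hP1 ▸ hP')), h0, Nat.cast_zero])
  obtain ⟨b, hbm, hb⟩ := IsLocalization.integerNormalization_spec (nonZeroDivisors B) P1
  obtain ⟨c, hcm, hc⟩ := IsLocalization.integerNormalization_spec (nonZeroDivisors B) Q1
  set P2 := IsLocalization.integerNormalization (nonZeroDivisors B) P1
  set Q2 := IsLocalization.integerNormalization (nonZeroDivisors B) Q1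
  have hkey : Polynomial.C b * Q2 * P = Polynomial.C c * P2 * Q := by
    refine Polynomial.map_injective _ hinj ?_
    simp only [Polynomial.map_mul, Polynomial.map_C, hb, hc, hP1, hQ1, Algebra.smul_def,
      Polynomial.algebraMap_apply]
    ring
  have hdvd : P ∣ Polynomial.C c * P2 :=
    hcop.dvd_of_dvd_mul_right ⟨Polynomial.C b * Q2, by rw [← hkey, mul_comm]⟩
  have hb0 : algebraMap B K b ≠ 0 :=
    IsFractionRing.to_map_ne_zero_of_mem_nonZeroDivisors hbm
  have hP2 : P2.natDegree = P1.natDegree := by
    rw [← Polynomial.natDegree_map_eq_of_injective hinj P2, hb, Algebra.smul_def,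
      Polynomial.algebraMap_apply, Polynomial.natDegree_C_mul hb0]
  have hc0 : c ≠ 0 := nonZeroDivisors.ne_zero hcm
  have hP20 : P2 ≠ 0 := fun e => by
    rw [e, Polynomial.map_zero, eq_comm, Algebra.smul_def, mul_eq_zero,
      Polynomial.algebraMap_apply, Polynomial.C_eq_zero] at hb
    exact hb.elim hb0 hP10
  have hle := Polynomial.natDegree_le_of_dvd hdvd (mul_ne_zero (Polynomial.C_ne_zero.2 hc0) hP20)
  rw [Polynomial.natDegree_C_mul hc0, hP2] at hle
  omega

/-- **The eliminant.** -/
theorem exists_eliminant {F G : MvPolynomial (Fin (r + 1)) (Polynomial k)}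
    {u : Fin r → Polynomial k} (hu : lead u F ≠ 0) {E : ℕ} (hE : ∀ m, (u m).natDegree ≤ E)
    {d h : ℕ} (hFb : Bd F d h) (hGb : Bd G d h) (hcop : IsRelPrime F G) :
    ∃ R : MvPolynomial (Fin r) (Polynomial k), R ≠ 0 ∧
      Bd R ((2 * d + 1) * d) ((2 * d + 1) * (h + d * E)) ∧
      ∀ x, ∀ M : Polynomial k, M ∣ eval x F → M ∣ eval x G → M ∣ eval (transv u x) R := by
  set P := fibrePoly u F with hPdef
  set Q := fibrePoly u G with hQdef
  have hPd : P.natDegree = F.totalDegree := le_antisymm (natDegree_fibrePoly_le u F)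
    (Polynomial.le_natDegree_of_ne_zero (by
      rw [hPdef, coeff_fibrePoly_totalDegree]; exact C_ne_zero.2 hu))
  rcases Nat.eq_zero_or_pos P.natDegree with h0 | h0
  · refine ⟨P.coeff 0, ?_, ((bd_fibrePoly hE hFb 0).mono (Nat.le_mul_of_pos_left _ (by omega))
      (Nat.le_mul_of_pos_left _ (by omega))), fun x M hF _ => ?_⟩
    · rw [hPdef, show 0 = F.totalDegree by omega, coeff_fibrePoly_totalDegree]
      exact C_ne_zero.2 hu
    · rw [← eval_fibrePoly u F x, ← hPdef, Polynomial.eq_C_of_natDegree_eq_zero h0,
        Polynomial.map_C, Polynomial.eval_C] at hF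
      exact hF
  · have hcop' : IsRelPrime P Q := fun D hDP hDQ => by
      obtain ⟨D', rfl⟩ := (finSuccEquiv (Polynomial k) r).surjective D
      obtain ⟨D'', rfl⟩ :=
        (LangWeilAll.shear (Fin.cons 1 u : Fin (r + 1) → Polynomial k) 0 1 (by simp) 0).surjective
          D'
      rw [hPdef, fibrePoly, map_dvd_iff, map_dvd_iff] at hDP
      rw [hQdef, fibrePoly, map_dvd_iff, map_dvd_iff] at hDQ
      exact ((hcop hDP hDQ).map _).map _
    refine ⟨Polynomial.resultant P Q, resultant_ne_zero_of_isRelPrime (by omega) hcop', ?_,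
      fun x M hF hG => ?_⟩
    · refine (bd_resultant (fun i => bd_fibrePoly hE hFb i) fun i => bd_fibrePoly hE hGb i).mono
        ?_ ?_ <;> refine Nat.mul_le_mul_right _ ?_
      all_goals
        have := (natDegree_fibrePoly_le u F).trans hFb.1
        have := (natDegree_fibrePoly_le u G).trans hGb.1
        simp only [← hPdef, ← hQdef] at *
        omega
    obtain ⟨a, b, -, -, hab⟩ :=
      Polynomial.exists_mul_add_mul_eq_C_resultant P Q le_rfl le_rfl (Or.inl (by omega))
    have h1 := congrArg (fun S => (S.map (eval (transv u x))).eval (x 0)) hab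
    simp only [Polynomial.map_add, Polynomial.map_mul, Polynomial.eval_add, Polynomial.eval_mul,
      Polynomial.map_C, Polynomial.eval_C, hPdef, hQdef, eval_fibrePoly] at h1
    rw [← h1]
    exact dvd_add (hF.mul_right _) (hG.mul_right _)

end FA.SquarefreeFFMulti
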